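import Fermat.Agent.CuspForms.Separator

/-!
# Translates of forms on `Γ₀(N)` and the interpolation identities
-/

set_option autoImplicit false
set_option linter.style.haveILetI false

open UpperHalfPlane CongruenceSubgroup Filter
open scoped MatrixGroups ModularForm Manifold Topology

namespace FLTAgent.CuspForms

noncomputable section

/-! ### Algebra: symmetric functions and interpolation -/

section algebra

variable {R : Type*} [CommRing R] {ι : Type*} [Fintype ι]

/-- The coefficient of `X^m` in `∏ (X - x_q)`. -/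
def symCoeff (x : ι → R) (m : ℕ) : R :=
  ∑ t ∈ (Finset.univ : Finset ι).powersetCard m,
    (letI := Classical.decEq ι; ∏ q ∈ tᶜ, -x q)

theorem symCoeff_eq [DecidableEq ι] (x : ι → R) (m : ℕ) :
    symCoeff x m = ∑ t ∈ (Finset.univ : Finset ι).powersetCard m, ∏ q ∈ tᶜ, -x q := by
  simp only [symCoeff]
  exact Finset.sum_congr rfl fun t _ => by congr! 

theorem symCoeff_card (x : ι → R) : symCoeff x (Fintype.card ι) = 1 := by
  classical
  rw [symCoeff_eq, ← Finset.card_univ, Finset.powersetCard_self]
  simp

theorem prod_X_sub_C_eq (x : ι → R) :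
    ∏ q, (Polynomial.X - Polynomial.C (x q)) =
      ∑ m ∈ Finset.range (Fintype.card ι + 1), Polynomial.C (symCoeff x m) * Polynomial.X ^ m := by
  classical
  simp only [sub_eq_add_neg, ← map_neg]
  rw [Finset.prod_add, Finset.sum_powerset, Finset.card_univ]
  refine Finset.sum_congr rfl fun m _ => ?_
  rw [symCoeff_eq, map_sum, Finset.sum_mul]
  refine Finset.sum_congr rfl fun t ht => ?_
  rw [map_prod, Finset.prod_const, (Finset.mem_powersetCard.mp ht).2, mul_comm,
    ← Finset.compl_eq_univ_sdiff]

theorem symCoeff_comp_perm (x : ι → R) (π : Equiv.Perm ι) (m : ℕ) :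
    symCoeff (x ∘ π) m = symCoeff x m := by
  rcases Nat.lt_or_ge (Fintype.card ι) m with hlt | hle
  · simp [symCoeff, Finset.powersetCard_eq_empty.mpr
      (show (Finset.univ : Finset ι).card < m by rwa [Finset.card_univ])]
  · have h := congrArg (fun P : Polynomial R => P.coeff m) (prod_X_sub_C_eq (x ∘ π))
    have h' := congrArg (fun P : Polynomial R => P.coeff m) (prod_X_sub_C_eq x)
    simp only [Function.comp_apply] at h
    rw [Equiv.prod_comp π (fun q => Polynomial.X - Polynomial.C (x q))] at h
    rw [h'] at h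
    simpa [Polynomial.finsetSum_coeff, Polynomial.coeff_C_mul, Polynomial.coeff_X_pow,
      Nat.lt_succ_of_le hle] using h.symm

theorem symCoeff_smul (x : ι → R) (c : R) (m : ℕ) :
    symCoeff (fun q => c * x q) m = c ^ (Fintype.card ι - m) * symCoeff x m := by
  classical
  rw [symCoeff_eq, symCoeff_eq, Finset.mul_sum]
  refine Finset.sum_congr rfl fun t ht => ?_
  rw [← (Finset.mem_powersetCard.mp ht).2, ← Finset.card_compl, ← Finset.prod_const,
    ← Finset.prod_mul_distrib]
  exact Finset.prod_congr rfl fun q _ => by ring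

theorem root_relation (x : ι → R) (q₀ : ι) :
    ∑ m ∈ Finset.range (Fintype.card ι + 1), symCoeff x m * x q₀ ^ m = 0 := by
  have := congrArg (Polynomial.eval (x q₀)) (prod_X_sub_C_eq x)
  rw [Polynomial.eval_prod, Finset.prod_eq_zero (Finset.mem_univ q₀) (by simp),
    Polynomial.eval_finsetSum] at this
  simpa using this.symm

variable [DecidableEq ι]

theorem derivative_relation (x : ι → R) (q₀ : ι) :
    ∑ m ∈ Finset.range (Fintype.card ι + 1), (m : R) * symCoeff x m * x q₀ ^ (m - 1) =
      ∏ q ∈ Finset.univ.erase q₀, (x q₀ - x q) := by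
  have := congrArg (fun P => Polynomial.eval (x q₀) (Polynomial.derivative P)) (prod_X_sub_C_eq x)
  simp only [Polynomial.derivative_prod_finset, Polynomial.derivative_sub,
    Polynomial.derivative_X, Polynomial.derivative_C, sub_zero, mul_one, map_sum,
    Polynomial.derivative_C_mul, Polynomial.derivative_X_pow, Polynomial.eval_finsetSum,
    Polynomial.eval_prod, Polynomial.eval_mul, Polynomial.eval_C, Polynomial.eval_pow,
    Polynomial.eval_X, Polynomial.eval_sub] at this
  rw [Finset.sum_eq_single q₀ (fun b _ hb => Finset.prod_eq_zero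
    (Finset.mem_erase.mpr ⟨hb.symm, Finset.mem_univ q₀⟩) (sub_self _)) (by simp)] at this
  rw [this]
  exact Finset.sum_congr rfl fun m _ => by ring

theorem interpolation_relation [IsDomain R] (x y : ι → R) (q₀ : ι) :
    ∑ m ∈ Finset.range (Fintype.card ι + 1), ∑ r ∈ Finset.range m,
      symCoeff x m * x q₀ ^ (m - 1 - r) * ∑ q, y q * x q ^ r =
      y q₀ * ∑ m ∈ Finset.range (Fintype.card ι + 1), (m : R) * symCoeff x m * x q₀ ^ (m - 1) := by
  have key : ∀ q, ∑ m ∈ Finset.range (Fintype.card ι + 1), ∑ r ∈ Finset.range m,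
      symCoeff x m * x q₀ ^ (m - 1 - r) * x q ^ r = ∏ j ∈ Finset.univ.erase q, (x q₀ - x j) := by
    intro q
    have hpoly : (∑ m ∈ Finset.range (Fintype.card ι + 1), ∑ r ∈ Finset.range m,
        Polynomial.C (symCoeff x m) * Polynomial.X ^ (m - 1 - r) * Polynomial.C (x q) ^ r) =
        ∏ j ∈ Finset.univ.erase q, (Polynomial.X - Polynomial.C (x j)) := by
      apply mul_right_cancel₀ (Polynomial.X_sub_C_ne_zero (x q))
      rw [Finset.prod_erase_mul _ _ (Finset.mem_univ q), prod_X_sub_C_eq, Finset.sum_mul]
      have h0 : ∑ m ∈ Finset.range (Fintype.card ι + 1),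
          Polynomial.C (symCoeff x m) * Polynomial.C (x q) ^ m = 0 := by
        have := congrArg Polynomial.C (root_relation x q)
        simpa [map_sum] using this
      conv_rhs => rw [← sub_zero (∑ m ∈ Finset.range _, _), ← h0, ← Finset.sum_sub_distrib]
      refine Finset.sum_congr rfl fun m _ => ?_
      rw [← mul_sub, ← geom_sum₂_mul, ← mul_assoc, Finset.mul_sum]
      congr 1
      conv_rhs => rw [← Finset.sum_range_reflect]
      refine Finset.sum_congr rfl fun r hr => ?_
      have : m - 1 - (m - 1 - r) = r := by have := Finset.mem_range.mp hr; omega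
      rw [this]
      ring
    have := congrArg (Polynomial.eval (x q₀)) hpoly
    simpa [Polynomial.eval_finsetSum, Polynomial.eval_prod] using this
  calc _ = ∑ q, y q * ∑ m ∈ Finset.range (Fintype.card ι + 1), ∑ r ∈ Finset.range m,
        symCoeff x m * x q₀ ^ (m - 1 - r) * x q ^ r := by
        simp only [Finset.mul_sum]
        rw [Finset.sum_comm (s := (Finset.univ : Finset ι))]
        refine Finset.sum_congr rfl fun m _ => ?_
        rw [Finset.sum_comm (s := (Finset.univ : Finset ι))]
        exact Finset.sum_congr rfl fun r _ => Finset.sum_congr rfl fun q _ => by ring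
    _ = ∑ q, y q * ∏ j ∈ Finset.univ.erase q, (x q₀ - x j) := by simp only [key]
    _ = y q₀ * ∏ j ∈ Finset.univ.erase q₀, (x q₀ - x j) := by
        refine Finset.sum_eq_single q₀ (fun b _ hb => ?_) (by simp)
        rw [Finset.prod_eq_zero (Finset.mem_erase.mpr ⟨hb.symm, Finset.mem_univ q₀⟩) (sub_self _),
          mul_zero]
    _ = _ := by rw [derivative_relation]

end algebra

/-! ### Translates -/

variable {N : ℕ} [NeZero N] {k l : ℤ} {F D : ℍ → ℂ}

variable (N) in
/-- The cosets of `Γ₀(N)`. -/
abbrev Coset : Type := SL(2, ℤ) ⧸ Gamma0 N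

instance : Fintype (Coset N) := Subgroup.fintypeQuotientOfFiniteIndex

namespace IsForm

/-- The translate attached to a coset. -/
def translate (hF : IsForm N k F) (q : Coset N) : ℍ → ℂ :=
  q.liftOn (fun g => F ∣[k] g⁻¹) (fun a b hab => by
    have hm : a⁻¹ * b ∈ Gamma0 N := QuotientGroup.leftRel_apply.mp hab
    have e : b⁻¹ = (a⁻¹ * b)⁻¹ * a⁻¹ := by group
    show F ∣[k] a⁻¹ = F ∣[k] b⁻¹
    rw [e, SlashAction.slash_mul, hF.slash _ (inv_mem hm)])

theorem translate_mk (hF : IsForm N k F) (g : SL(2, ℤ)) :
    hF.translate (g : Coset N) = F ∣[k] g⁻¹ := rfl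

theorem translate_one (hF : IsForm N k F) : hF.translate ((1 : SL(2, ℤ)) : Coset N) = F := by
  rw [translate_mk, inv_one, SlashAction.slash_one]

theorem translate_slash (hF : IsForm N k F) (q : Coset N) (γ : SL(2, ℤ)) :
    hF.translate q ∣[k] γ = hF.translate (γ⁻¹ • q) := by
  induction q using QuotientGroup.induction_on with
  | H g =>
    rw [translate_mk, show (γ⁻¹ • (g : Coset N)) = ((γ⁻¹ * g : SL(2, ℤ)) : Coset N) from rfl,
      translate_mk, mul_inv_rev, inv_inv, SlashAction.slash_mul]

theorem translate_smul (hF : IsForm N k F) (q : Coset N) (γ : SL(2, ℤ)) (τ : ℍ) :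
    hF.translate q (γ • τ) = denom γ τ ^ k * hF.translate (γ⁻¹ • q) τ := by
  rw [← hF.translate_slash q γ, ModularForm.SL_slash_apply, mul_left_comm,
    ← zpow_add₀ (denom_ne_zero _ _)]
  simp

theorem translate_holo (hF : IsForm N k F) (q : Coset N) : MDiff (hF.translate q) := by
  induction q using QuotientGroup.induction_on with
  | H g =>
    rw [translate_mk]
    exact (hF.holo).slash k _

theorem translate_bdd (hF : IsForm N k F) (q : Coset N) : IsBoundedAtImInfty (hF.translate q) := by
  induction q using QuotientGroup.induction_on with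
  | H g =>
    rw [translate_mk]
    exact hF.bdd _

theorem translate_zero (hF : IsCuspidal N k F) (q : Coset N) :
    IsZeroAtImInfty (hF.toIsForm.translate q) := by
  induction q using QuotientGroup.induction_on with
  | H g =>
    rw [translate_mk]
    exact hF.zero _

/-- A function with the transformation law of level one. -/
theorem levelOne_mk {G : ℍ → ℂ} {m : ℤ} (hol : MDiff G) (bdd : IsBoundedAtImInfty G)
    (h : ∀ (γ : SL(2, ℤ)) (τ : ℍ), G (γ • τ) = denom γ τ ^ m * G τ) : IsForm 1 m G := by
  have hs : ∀ γ : SL(2, ℤ), G ∣[m] γ = G := fun γ => by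
    funext τ
    rw [ModularForm.SL_slash_apply, h, mul_assoc, mul_comm (G τ), ← mul_assoc,
      ← zpow_add₀ (denom_ne_zero _ _)]
    simp
  exact ⟨hol, fun γ _ => hs γ, fun γ => (hs γ).symm ▸ bdd⟩

/-- The coefficient forms of the polynomial with roots the translates. -/
def coeffForm (hF : IsForm N k F) (m : ℕ) : ℍ → ℂ := fun τ => symCoeff (fun q => hF.translate q τ) m

theorem isForm_coeffForm (hF : IsForm N k F) (m : ℕ) :
    IsForm 1 (((Fintype.card (Coset N) - m : ℕ) : ℤ) * k) (hF.coeffForm m) := by
  classical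
  refine levelOne_mk ?_ ?_ fun γ τ => ?_
  · have : hF.coeffForm m = ∑ t ∈ (Finset.univ : Finset (Coset N)).powersetCard m,
        ∏ q ∈ tᶜ, -(hF.translate q) := by
      funext τ
      rw [coeffForm, symCoeff_eq]
      simp [Finset.sum_apply, Finset.prod_apply]
    rw [this]
    exact MDifferentiable.sum fun t _ => MDifferentiable.prod fun q _ => (hF.translate_holo q).neg
  · have : hF.coeffForm m = ∑ t ∈ (Finset.univ : Finset (Coset N)).powersetCard m,
        ∏ q ∈ tᶜ, -(hF.translate q) := by
      funext τ
      rw [coeffForm, symCoeff_eq]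
      simp [Finset.sum_apply, Finset.prod_apply]
    rw [this]
    refine Finset.sum_induction _ IsBoundedAtImInfty (fun _ _ ha hb => ha.add hb)
      (Filter.const_boundedAtFilter _ (0 : ℂ)) fun t _ => ?_
    exact Finset.prod_induction _ IsBoundedAtImInfty (fun _ _ ha hb => ha.mul hb)
      (Filter.const_boundedAtFilter _ (1 : ℂ)) fun q _ => (hF.translate_bdd q).neg
  · simp only [coeffForm]
    have hperm : (fun q => hF.translate q (γ • τ)) =
        (fun q => denom γ τ ^ k * hF.translate q τ) ∘ (MulAction.toPerm γ⁻¹ : Equiv.Perm (Coset N)) := by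
      funext q
      rw [hF.translate_smul q γ τ]
      rfl
    rw [hperm, symCoeff_comp_perm, symCoeff_smul, ← zpow_natCast, ← zpow_mul, mul_comm k]

/-- The mixed power sums. -/
def mixedSum (hF : IsForm N k F) (hD : IsForm N l D) (r : ℕ) : ℍ → ℂ :=
  fun τ => ∑ q, hF.translate q τ * hD.translate q τ ^ r

theorem isForm_mixedSum (hF : IsForm N k F) (hD : IsForm N l D) (r : ℕ) :
    IsForm 1 (k + (r : ℤ) * l) (hF.mixedSum hD r) := by
  refine levelOne_mk ?_ ?_ fun γ τ => ?_
  · have : hF.mixedSum hD r = ∑ q, hF.translate q * hD.translate q ^ r := by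
      funext τ; simp [mixedSum, Finset.sum_apply]
    rw [this]
    exact MDifferentiable.sum fun q _ => (hF.translate_holo q).mul ((hD.translate_holo q).pow r)
  · have : hF.mixedSum hD r = ∑ q, hF.translate q * hD.translate q ^ r := by
      funext τ; simp [mixedSum, Finset.sum_apply]
    rw [this]
    refine Finset.sum_induction _ IsBoundedAtImInfty (fun _ _ ha hb => ha.add hb)
      (Filter.const_boundedAtFilter _ (0 : ℂ)) fun q _ => (hF.translate_bdd q).mul ?_
    induction r with
    | zero => rw [pow_zero]; exact Filter.const_boundedAtFilter _ (1 : ℂ)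
    | succ r ih =>
      rw [pow_succ]
      exact (ih (by funext τ; simp [mixedSum, Finset.sum_apply])).mul (hD.translate_bdd q)
  · simp only [mixedSum, Finset.mul_sum]
    rw [← Equiv.sum_comp (MulAction.toPerm γ : Equiv.Perm (Coset N))]
    refine Finset.sum_congr rfl fun q _ => ?_
    rw [hF.translate_smul, hD.translate_smul, zpow_add₀ (denom_ne_zero _ _), mul_pow,
      ← zpow_natCast (denom γ τ ^ l) r, ← zpow_mul, mul_comm l]
    simp only [MulAction.toPerm_apply, inv_smul_smul]
    ring

end IsForm

/-! ### The separator's translates are distinct -/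

theorem sep_translate_ne {q : Coset N} (hq : q ≠ ((1 : SL(2, ℤ)) : Coset N)) :
    (isForm_sep N).translate q ≠ sep N := by
  induction q using QuotientGroup.induction_on with
  | H g =>
    intro h
    apply hq
    rw [IsForm.translate_mk] at h
    have := mem_Gamma0_of_sep_slash_eq N h
    rw [inv_mem_iff] at this
    exact QuotientGroup.eq.mpr (by simpa using inv_mem this)

end

end FLTAgent.CuspForms
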