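import Fermat.Agent.CuspForms.Basic

/-!
# Duality between the weight-two Hecke algebra and cusp forms
-/

set_option autoImplicit false
set_option linter.style.haveILetI false

open CongruenceSubgroup ModularFormClass

namespace FLTAgent.CuspForms

noncomputable section

variable (N : ℕ) [NeZero N]

/-- `T_p` for `p ∤ N`, `U_p` for `p ∣ N`, in the full weight-two Hecke algebra. -/
def heckeGen (p : ℕ) (hp : p.Prime) : CuspForm.heckeAlgebra N 2 (∅ : Set ℕ) :=
  if h : p ∣ N then CuspForm.heckeAlgebra.U hp h (by simp)
  else CuspForm.heckeAlgebra.T hp h (by simp)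

/-- The weight `e_p` in the three-term relation. -/
def heckeWeight (p : ℕ) : ℕ := if p ∣ N then 0 else p

variable {N}

theorem qCoeff_heckeGen (p : ℕ) (hp : p.Prime) (f : CuspForm (Gamma0 N) 2) (n : ℕ) :
    qCoeff ⇑((heckeGen N p hp : Module.End ℂ (CuspForm (Gamma0 N) 2)) f) n =
      qCoeff f (p * n) + (heckeWeight N p : ℂ) * (if p ∣ n then qCoeff f (n / p) else 0) := by
  by_cases h : p ∣ N
  · have e : ⇑((heckeGen N p hp : Module.End ℂ (CuspForm (Gamma0 N) 2)) f) =
        ModularForm.heckeU 2 p ⇑f := by simp [heckeGen, h]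
    rw [e, ModularFormClass.qCoeff_heckeU f (one_mem_strictPeriods_Gamma0 N) hp.ne_zero n,
      ModularForm.coeffHeckeU_apply, mul_comm n p]
    simp [heckeWeight, h]
  · have e : ⇑((heckeGen N p hp : Module.End ℂ (CuspForm (Gamma0 N) 2)) f) =
        ModularForm.heckeT 2 p ⇑f := by simp [heckeGen, h]
    rw [e, ModularFormClass.qCoeff_heckeT f (one_mem_strictPeriods_Gamma0 N) hp.ne_zero n,
      ModularForm.coeffHeckeT_apply, mul_comm n p]
    simp [heckeWeight, h]

/-- The pairing with the first Fourier coefficient is non-degenerate on forms. -/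
theorem eq_zero_of_qCoeff_one {f : CuspForm (Gamma0 N) 2}
    (h : ∀ t : CuspForm.heckeAlgebra N 2 (∅ : Set ℕ),
      qCoeff ⇑((t : Module.End ℂ (CuspForm (Gamma0 N) 2)) f) 1 = 0) : f = 0 := by
  suffices H : ∀ n, ∀ t : CuspForm.heckeAlgebra N 2 (∅ : Set ℕ),
      qCoeff ⇑((t : Module.End ℂ (CuspForm (Gamma0 N) 2)) f) n = 0 by
    exact eq_zero_of_qCoeff fun n => by simpa using H n 1
  intro n
  induction n using Nat.strong_induction_on with
  | _ n ih =>
    intro t
    rcases Nat.lt_or_ge n 2 with hn | hn
    · interval_cases n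
      · exact qCoeff_zero_index _
      · exact h t
    · have hp := Nat.minFac_prime (n := n) (by omega)
      obtain ⟨m, hm⟩ := Nat.minFac_dvd n
      have hmn : m < n := by
        rcases Nat.eq_zero_or_pos m with rfl | hm0
        · omega
        · nlinarith [hp.two_le]
      have key := qCoeff_heckeGen n.minFac hp ((t : Module.End ℂ (CuspForm (Gamma0 N) 2)) f) m
      rw [← hm] at key
      have h1 := ih m hmn (heckeGen N n.minFac hp * t)
      rw [MulMemClass.coe_mul, Module.End.mul_apply, key] at h1
      by_cases hd : n.minFac ∣ m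
      · rw [if_pos hd, ih (m / n.minFac) (lt_of_le_of_lt (Nat.div_le_self _ _) hmn) t] at h1
        simpa using h1
      · rw [if_neg hd] at h1
        simpa using h1

/-- A recursion with multiplicative conclusion. -/
theorem mul_of_hecke_recursion {A : ℕ → ℂ} (lam : ℕ → ℂ) (e : ℕ → ℂ) (h1 : A 1 = 1)
    (h : ∀ p, p.Prime → ∀ n, lam p * A n = A (p * n) + e p * (if p ∣ n then A (n / p) else 0)) :
    ∀ m n : ℕ, m.Coprime n → A (m * n) = A m * A n := by
  intro m
  induction m using Nat.strong_induction_on with
  | _ m ih =>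
    intro n hmn
    rcases Nat.lt_or_ge m 2 with hm2 | hm2
    · interval_cases m
      · rw [Nat.coprime_zero_left] at hmn
        subst hmn
        simp [h1]
      · simp [h1]
    · have hp := Nat.minFac_prime (n := m) (by omega)
      obtain ⟨r, hr⟩ := Nat.minFac_dvd m
      generalize m.minFac = p at hp hr
      subst hr
      have hr0 : 0 < r := by
        rcases Nat.eq_zero_or_pos r with rfl | hr0
        · simp at hm2
        · exact hr0
      have hrm : r < p * r := by nlinarith [hp.two_le]
      obtain ⟨hpn, hrn⟩ := Nat.coprime_mul_iff_left.mp hmn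
      have e1 := h p hp (r * n)
      have e2 := h p hp r
      rw [ih r hrm n hrn, ← mul_assoc p r n] at e1
      by_cases hd : p ∣ r
      · rw [if_pos hd] at e2
        rw [if_pos (hd.trans (dvd_mul_right r n))] at e1
        obtain ⟨s, rfl⟩ := hd
        have hs : s < p * (p * s) := by nlinarith [hp.two_le]
        rw [show p * s * n / p = s * n by rw [mul_assoc, Nat.mul_div_cancel_left _ hp.pos],
          ih s hs n (Nat.coprime_mul_iff_left.mp hrn).2] at e1
        rw [Nat.mul_div_cancel_left _ hp.pos] at e2
        linear_combination -e1 + A n * e2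
      · rw [if_neg hd] at e2
        have hd' : ¬ p ∣ r * n := fun hh =>
          hd ((Nat.Coprime.dvd_of_dvd_mul_right hpn hh))
        rw [if_neg hd'] at e1
        linear_combination -e1 + A n * e2

/-- A system of eigenvalues carried by a form with first coefficient one gives a normalised
eigenform. -/
theorem isNormalizedEigenform_of_eigen {g : CuspForm (Gamma0 N) 2} (h1 : qCoeff g 1 = 1)
    (χ : CuspForm.heckeAlgebra N 2 (∅ : Set ℕ) → ℂ)
    (hg : ∀ t : CuspForm.heckeAlgebra N 2 (∅ : Set ℕ),
      (t : Module.End ℂ (CuspForm (Gamma0 N) 2)) g = χ t • g) :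
    g.IsNormalizedEigenform ∧ ∀ p (hp : p.Prime), qCoeff g p = χ (heckeGen N p hp) := by
  have key : ∀ p (hp : p.Prime) n, χ (heckeGen N p hp) * qCoeff g n =
      qCoeff g (p * n) + (heckeWeight N p : ℂ) * (if p ∣ n then qCoeff g (n / p) else 0) := by
    intro p hp n
    have := qCoeff_heckeGen p hp g n
    rwa [hg, qCoeff_smul_form] at this
  have hval : ∀ p (hp : p.Prime), qCoeff g p = χ (heckeGen N p hp) := by
    intro p hp
    have := key p hp 1
    rw [h1, if_neg hp.not_dvd_one] at this
    simpa using this.symm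
  refine ⟨?_, hval⟩
  have key' : ∀ p, p.Prime → ∀ n, qCoeff g p * qCoeff g n =
      qCoeff g (p * n) + (heckeWeight N p : ℂ) * (if p ∣ n then qCoeff g (n / p) else 0) :=
    fun p hp n => by rw [hval p hp]; exact key p hp n
  refine ⟨h1, mul_of_hecke_recursion _ _ h1 key', fun p r hp hpN => ?_, fun p r hp hpN => ?_⟩
  · have := key' p hp (p ^ (r + 1))
    rw [if_pos (dvd_pow_self p (Nat.succ_ne_zero r)), ← pow_succ',
      pow_succ' p r, Nat.mul_div_cancel_left _ hp.pos, ← pow_succ'] at this
    simp only [heckeWeight, hpN, if_false] at this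
    linear_combination -this
  · have := key' p hp (p ^ (r + 1))
    rw [← pow_succ'] at this
    simp only [heckeWeight, hpN, if_true, Nat.cast_zero, zero_mul, add_zero] at this
    exact this.symm

/-- Every character of the Hecke algebra comes from a normalised eigenform. -/
theorem exists_eigenform_of_ringHom (h : CuspForm.HasIntegralStructure N 2)
    (χ : CuspForm.heckeAlgebra N 2 (∅ : Set ℕ) →+* ℂ) :
    ∃ g : CuspForm (Gamma0 N) 2, g.IsNormalizedEigenform ∧
      ∀ p (hp : p.Prime), qCoeff g p = χ (heckeGen N p hp) := by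
  haveI : Module.Finite ℤ (CuspForm.heckeAlgebra N 2 (∅ : Set ℕ)) :=
    moduleFinite_heckeAlgebra_of_structure (by norm_num) h ∅
  let ι := Module.Free.ChooseBasisIndex ℤ (CuspForm.heckeAlgebra N 2 (∅ : Set ℕ))
  let b : Module.Basis ι ℤ (CuspForm.heckeAlgebra N 2 (∅ : Set ℕ)) :=
    Module.Free.chooseBasis ℤ _
  let Φ : CuspForm (Gamma0 N) 2 →ₗ[ℂ] (ι → ℂ) :=
    LinearMap.pi fun i => (qcLin N 2 1).comp (b i : Module.End ℂ (CuspForm (Gamma0 N) 2))
  have hsurj : LinearMap.range Φ = ⊤ := by
    by_contra hne
    obtain ⟨ψ, hψ0, hψ⟩ := Submodule.exists_le_ker_of_lt_top _ (lt_top_iff_ne_top.mpr hne)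
    apply hψ0
    set c : ι → ℂ := fun i => ψ (Pi.single i 1) with hc
    have hψc : ∀ x : ι → ℂ, ψ x = ∑ i, x i * c i := by
      intro x
      conv_lhs => rw [← Finset.univ_sum_single x]
      rw [map_sum]
      refine Finset.sum_congr rfl fun i _ => ?_
      rw [show (Pi.single i (x i) : ι → ℂ) = x i • Pi.single i 1 by
        ext j; simp [Pi.single_apply], map_smul, hc]
      rfl
    -- the integral matrix
    have hint : ∀ i, ∀ f : CuspForm.intLattice N 2, ∃ m : ℤ,
        qCoeff ⇑((b i : Module.End ℂ (CuspForm (Gamma0 N) 2)) f) 1 = (m : ℂ) := fun i f =>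
      (mem_intLattice_iff _).mp
        (CuspForm.mem_intLattice_of_mem_heckeAlgebra (by norm_num) (b i).2 f.2) 1
    choose m hm using hint
    have hind : LinearIndependent ℤ m := by
      rw [Fintype.linearIndependent_iff]
      intro a ha
      have ht : (((∑ i, a i • b i) : CuspForm.heckeAlgebra N 2 (∅ : Set ℕ)) :
          Module.End ℂ (CuspForm (Gamma0 N) 2)) = 0 := by
        apply end_eq_zero_of_intLattice h
        intro f hf
        apply eq_zero_of_qCoeff_one
        intro s
        have hsf : (s : Module.End ℂ (CuspForm (Gamma0 N) 2)) f ∈ CuspForm.intLattice N 2 :=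
          CuspForm.mem_intLattice_of_mem_heckeAlgebra (by norm_num) s.2 hf
        rw [← Module.End.mul_apply, ← MulMemClass.coe_mul, mul_comm, MulMemClass.coe_mul,
          Module.End.mul_apply]
        rw [← qcLin_apply]
        simp only [AddSubmonoidClass.coe_finsetSum, SetLike.val_smul, LinearMap.sum_apply,
          LinearMap.smul_apply, map_sum, map_zsmul, qcLin_apply]
        have := congrArg (fun z : ℤ => (z : ℂ)) (congrFun ha ⟨_, hsf⟩)
        rw [show (Finset.univ.sum fun i => a i • m i) ⟨_, hsf⟩ = ∑ i, a i * m i ⟨_, hsf⟩ by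
          simp] at this
        push_cast at this
        simp only [Pi.zero_apply, Int.cast_zero] at this
        simp only [zsmul_eq_mul]
        convert this using 2 with i
        exact congrArg _ (hm i ⟨_, hsf⟩)
      have ht' : (∑ i, a i • b i) = 0 := Subtype.ext ht
      exact Fintype.linearIndependent_iff.mp b.linearIndependent a ht'
    have hker : ∀ f : CuspForm.intLattice N 2, ∑ i, (m i f : ℂ) * c i = 0 := by
      intro f
      have := hψ ⟨(f : CuspForm (Gamma0 N) 2), rfl⟩
      rw [LinearMap.mem_ker, hψc] at this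
      simpa [Φ, hm] using this
    have hc0 : ∀ i, c i = 0 := by
      intro i
      rw [← Module.forall_dual_apply_eq_zero_iff ℚ]
      intro φ
      have hq : LinearIndependent ℚ fun i (f : CuspForm.intLattice N 2) => (m i f : ℚ) := by
        rw [← LinearIndependent.iff_fractionRing ℤ ℚ]
        rw [Fintype.linearIndependent_iff] at hind ⊢
        intro a ha
        apply hind a
        funext f
        have := congrFun ha f
        simp [Finset.sum_apply] at this ⊢
        exact_mod_cast this
      refine Fintype.linearIndependent_iff.mp hq (fun i => φ (c i)) ?_ i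
      funext f
      have := congrArg φ (hker f)
      rw [map_sum, map_zero] at this
      simp only [Finset.sum_apply, Pi.smul_apply, smul_eq_mul, Pi.zero_apply]
      rw [← this]
      refine Finset.sum_congr rfl fun i _ => ?_
      rw [show ((m i f : ℂ) * c i) = (m i f : ℚ) • c i by rw [Rat.smul_def]; norm_cast,
        map_smul, smul_eq_mul, mul_comm]
    ext x
    simp [hψc, hc0]
  obtain ⟨g, hg⟩ := LinearMap.range_eq_top.mp hsurj (fun i => χ (b i))
  have hpair : ∀ t : CuspForm.heckeAlgebra N 2 (∅ : Set ℕ),
      qCoeff ⇑((t : Module.End ℂ (CuspForm (Gamma0 N) 2)) g) 1 = χ t := by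
    intro t
    rw [← b.sum_repr t]
    rw [← qcLin_apply]
    simp only [AddSubmonoidClass.coe_finsetSum, SetLike.val_smul, LinearMap.sum_apply,
      LinearMap.smul_apply, map_sum, map_zsmul, qcLin_apply]
    refine Finset.sum_congr rfl fun i _ => ?_
    have := congrFun hg i
    simp only [Φ, LinearMap.pi_apply, LinearMap.comp_apply, qcLin_apply] at this
    rw [this]
  have hg1 : qCoeff g 1 = 1 := by
    have := hpair 1
    simpa using this
  have heig : ∀ t : CuspForm.heckeAlgebra N 2 (∅ : Set ℕ),
      (t : Module.End ℂ (CuspForm (Gamma0 N) 2)) g = χ t • g := by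
    intro t
    rw [← sub_eq_zero]
    apply eq_zero_of_qCoeff_one
    intro s
    rw [← qcLin_apply, map_sub, map_smul, map_sub, map_smul, qcLin_apply, qcLin_apply,
      ← Module.End.mul_apply, ← MulMemClass.coe_mul, hpair, hpair, map_mul, smul_eq_mul]
    ring
  exact ⟨g, isNormalizedEigenform_of_eigen hg1 χ heig⟩

end

end FLTAgent.CuspForms
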