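import Mathlib
import Fermat.Prelude.Def_CuspForm_HeckeAlgebra
import Fermat.Prelude.Def_CuspForm_IntegralStructure
import Fermat.Prelude.Thm_CuspForm_intLattice_fg
import Fermat.Prelude.Thm_CuspForm_mem_intLattice_of_mem_heckeAlgebra
import Fermat.Prelude.Thm_ModularFormClass_qCoeff_heckeT
import Fermat.Prelude.Thm_ModularFormClass_qCoeff_heckeU
import Fermat.Prelude.Thm_CongruenceSubgroup_one_mem_strictPeriods_Gamma0

/-!
# Fourier coefficients of cusp forms on `Γ₀(N)`, and the integral lattice
-/

set_option autoImplicit false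
set_option linter.style.haveILetI false

open CongruenceSubgroup ModularFormClass

namespace FLTAgent.CuspForms

noncomputable section

variable {N : ℕ} {k : ℤ}

/-- The `n`-th Fourier coefficient at infinity, as a linear functional. -/
def qcLin (N : ℕ) (k : ℤ) (n : ℕ) : CuspForm (Gamma0 N) k →ₗ[ℂ] ℂ where
  toFun f := qCoeff f n
  map_add' f g := by
    simp only [qCoeff, CuspForm.coe_add]
    rw [ModularForm.qExpansion_add one_pos (one_mem_strictPeriods_Gamma0 N) f g, map_add]
  map_smul' c f := by
    simp only [qCoeff, CuspForm.IsGLPos.coe_smul, RingHom.id_apply]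
    rw [ModularForm.qExpansion_smul one_pos (one_mem_strictPeriods_Gamma0 N) c f]
    simp

@[simp] theorem qcLin_apply (n : ℕ) (f : CuspForm (Gamma0 N) k) : qcLin N k n f = qCoeff f n := rfl

theorem qCoeff_zero_form (n : ℕ) : qCoeff ⇑(0 : CuspForm (Gamma0 N) k) n = 0 :=
  map_zero (qcLin N k n)

theorem qCoeff_smul_form (c : ℂ) (f : CuspForm (Gamma0 N) k) (n : ℕ) :
    qCoeff ⇑(c • f) n = c * qCoeff f n :=
  map_smul (qcLin N k n) c f

theorem qCoeff_zsmul_form (c : ℤ) (f : CuspForm (Gamma0 N) k) (n : ℕ) :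
    qCoeff ⇑(c • f) n = c * qCoeff f n := by
  have := map_zsmul (qcLin N k n) c f
  rw [zsmul_eq_mul] at this
  exact this

theorem qCoeff_add_form (f g : CuspForm (Gamma0 N) k) (n : ℕ) :
    qCoeff ⇑(f + g) n = qCoeff f n + qCoeff g n :=
  map_add (qcLin N k n) f g

theorem qCoeff_sub_form (f g : CuspForm (Gamma0 N) k) (n : ℕ) :
    qCoeff ⇑(f - g) n = qCoeff f n - qCoeff g n :=
  map_sub (qcLin N k n) f g

theorem qCoeff_zero_index [NeZero N] (f : CuspForm (Gamma0 N) k) : qCoeff f 0 = 0 :=
  CuspFormClass.qExpansion_coeff_zero f one_pos (one_mem_strictPeriods_Gamma0 N)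

theorem eq_zero_of_qCoeff [NeZero N] {f : CuspForm (Gamma0 N) k} (h : ∀ n, qCoeff f n = 0) :
    f = 0 := by
  have hq : UpperHalfPlane.qExpansion 1 f = 0 := by
    ext n
    simpa [qCoeff] using h n
  have h0 : (f : ModularForm (Gamma0 N) k) = 0 :=
    (ModularForm.qExpansion_eq_zero_iff one_pos (one_mem_strictPeriods_Gamma0 N) _).mp hq
  ext z
  exact DFunLike.congr_fun h0 z

theorem eq_of_qCoeff [NeZero N] {f g : CuspForm (Gamma0 N) k}
    (h : ∀ n, qCoeff f n = qCoeff g n) : f = g :=
  sub_eq_zero.mp (eq_zero_of_qCoeff fun n => by rw [qCoeff_sub_form, h n, sub_self])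

/-- The integral lattice is exactly the set of forms with integral coefficients. -/
theorem mem_intLattice_iff (f : CuspForm (Gamma0 N) k) :
    f ∈ CuspForm.intLattice N k ↔ ∀ n : ℕ, ∃ m : ℤ, qCoeff f n = (m : ℂ) := by
  refine ⟨fun hf => ?_, fun h => Submodule.subset_span h⟩
  induction hf using Submodule.span_induction with
  | mem x hx => exact hx
  | zero => exact fun n => ⟨0, by rw [qCoeff_zero_form]; simp⟩
  | add x y _ _ hx hy =>
    intro n
    obtain ⟨a, ha⟩ := hx n
    obtain ⟨b, hb⟩ := hy n
    exact ⟨a + b, by rw [qCoeff_add_form, ha, hb]; push_cast; rfl⟩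
  | smul c x _ hx =>
    intro n
    obtain ⟨a, ha⟩ := hx n
    exact ⟨c * a, by rw [qCoeff_zsmul_form, ha]; push_cast; rfl⟩

/-- An endomorphism killing the integral lattice is zero, given an integral structure. -/
theorem end_eq_zero_of_intLattice (h : CuspForm.HasIntegralStructure N k)
    {t : Module.End ℂ (CuspForm (Gamma0 N) k)}
    (ht : ∀ f ∈ CuspForm.intLattice N k, t f = 0) : t = 0 :=
  LinearMap.ext_on h (fun f hf => by simpa using ht f hf)

/-- The Hecke algebra is finite over `ℤ` as soon as there is an integral structure. -/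
theorem moduleFinite_heckeAlgebra_of_structure [NeZero N] (hk : 1 ≤ k)
    (h : CuspForm.HasIntegralStructure N k) (S : Set ℕ) :
    Module.Finite ℤ (CuspForm.heckeAlgebra N k S) := by
  haveI : Module.Finite ℤ (CuspForm.intLattice N k) :=
    Module.Finite.iff_fg.mpr (CuspForm.intLattice_fg N k)
  haveI : Module.IsTorsionFree ℤ (CuspForm (Gamma0 N) k) := by
    haveI : IsAddTorsionFree (CuspForm (Gamma0 N) k) := IsAddTorsionFree.of_isTorsionFree ℂ _
    infer_instance
  haveI : Module.Free ℤ (CuspForm.intLattice N k) := inferInstance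
  let φ : CuspForm.heckeAlgebra N k S →ₗ[ℤ]
      (CuspForm.intLattice N k →ₗ[ℤ] CuspForm.intLattice N k) :=
    { toFun := fun t =>
        { toFun := fun f => ⟨(t : Module.End ℂ _) f,
            CuspForm.mem_intLattice_of_mem_heckeAlgebra hk t.2 f.2⟩
          map_add' := fun f g => Subtype.ext (by simp)
          map_smul' := fun c f => Subtype.ext (by simp) }
      map_add' := fun s t => rfl
      map_smul' := fun c s => rfl }
  have hinj : Function.Injective φ := by
    intro s t hst
    refine Subtype.ext (sub_eq_zero.mp (end_eq_zero_of_intLattice h fun f hf => ?_))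
    have := congrArg Subtype.val (LinearMap.congr_fun hst ⟨f, hf⟩)
    simpa [φ, sub_eq_zero] using this
  exact Module.Finite.of_injective φ hinj

end

end FLTAgent.CuspForms
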