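import Fermat.Agent.CuspForms.GaloisConjugate
import Fermat.Agent.CuspForms.Basic
import Fermat.Prelude.Thm_ModularForm_sturm_bound_Gamma0

/-!
# The integral structure on cusp forms of every weight and level
-/

set_option autoImplicit false
set_option linter.style.haveILetI false

open CongruenceSubgroup ModularFormClass UpperHalfPlane

namespace FLTAgent.CuspForms

noncomputable section

variable {N : ℕ} [NeZero N] {k : ℤ}

theorem cuspForm_eq_zero_of_weight_nonpos (hk : k ≤ 0) (f : CuspForm (Gamma0 N) k) : f = 0 := by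
  apply eq_zero_of_qCoeff
  intro n
  rcases Nat.eq_zero_or_pos n with rfl | hn
  · exact qCoeff_zero_index f
  · have h0 : (f : ModularForm (Gamma0 N) k) = 0 := by
      apply ModularForm.sturm_bound_Gamma0 N
      intro m hm
      have : (k * ((Gamma0 N).index : ℤ)).toNat = 0 :=
        Int.toNat_of_nonpos (mul_nonpos_of_nonpos_of_nonneg hk (Nat.cast_nonneg _))
      rw [this] at hm
      obtain rfl : m = 0 := by omega
      exact qCoeff_zero_index f
    have : (⇑f : ℍ → ℂ) = 0 := by
      funext z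
      exact DFunLike.congr_fun h0 z
    simp [qCoeff, this, UpperHalfPlane.qExpansion_zero]

theorem eq_zero_of_qCoeff_le {f : CuspForm (Gamma0 N) k}
    (h : ∀ n, n ≤ (k * (Gamma0 N).index).toNat / 12 → qCoeff f n = 0) : f = 0 := by
  have h0 : (f : ModularForm (Gamma0 N) k) = 0 := ModularForm.sturm_bound_Gamma0 N _ h
  ext z
  exact DFunLike.congr_fun h0 z

/-- The `σ`-conjugate of a cusp form. -/
theorem exists_conj_cuspForm (σ : ℂ →+* ℂ) (f : CuspForm (Gamma0 N) k) :
    ∃ g : CuspForm (Gamma0 N) k, ∀ n, qCoeff g n = σ (qCoeff f n) := by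
  obtain ⟨G, hG, heq⟩ := exists_conj_cuspidal (isCuspidal_of_cuspForm f) σ
  refine ⟨hG.toCuspForm, fun n => ?_⟩
  simp [qCoeff, heq, PowerSeries.coeff_map]

/-- A form with rational coefficients has a non-zero multiple with integral coefficients. -/
theorem exists_multiple_mem_intLattice {f : CuspForm (Gamma0 N) k}
    (hf : ∀ n, ∃ q : ℚ, (q : ℂ) = qCoeff f n) :
    ∃ L : ℤ, L ≠ 0 ∧ L • f ∈ CuspForm.intLattice N k := by
  obtain ⟨A, B, m, a, hA, hA0, hB, hAB, ha, hrel⟩ :=
    cuspidal_series_data (isCuspidal_of_cuspForm f)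
  obtain ⟨L, t, hL, ht⟩ := exists_int_mul_mem_intIncl hf hA hA0 hB hAB m a ha hrel
  refine ⟨L, hL, (mem_intLattice_iff _).mpr fun n => ⟨PowerSeries.coeff n t, ?_⟩⟩
  have := congrArg (PowerSeries.coeff n) ht
  rw [← map_intCast (PowerSeries.C (R := ℂ)), PowerSeries.coeff_C_mul, coeff_intIncl] at this
  rw [qCoeff_zsmul_form]
  exact this

/-- **Integral structure** in every weight and level. -/
theorem hasIntegralStructure (N : ℕ) [NeZero N] (k : ℤ) : CuspForm.HasIntegralStructure N k := by
  set B := (k * (Gamma0 N).index).toNat / 12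
  let T : CuspForm (Gamma0 N) k →ₗ[ℂ] (Fin (B + 1) → ℂ) :=
    LinearMap.pi fun i => qcLin N k i
  have hT : Function.Injective T := by
    rw [injective_iff_map_eq_zero]
    intro f hf
    exact eq_zero_of_qCoeff_le fun n hn => congrFun hf ⟨n, Nat.lt_succ_of_le hn⟩
  have hV : ∀ σ : ℂ →+* ℂ, ∀ v ∈ LinearMap.range T, (fun i => σ (v i)) ∈ LinearMap.range T := by
    rintro σ _ ⟨f, rfl⟩
    obtain ⟨g, hg⟩ := exists_conj_cuspForm σ f
    exact ⟨g, funext fun i => hg i⟩
  rw [CuspForm.HasIntegralStructure, eq_top_iff]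
  intro f _
  have hmem : T f ∈ Submodule.map T (Submodule.span ℂ
      ((CuspForm.intLattice N k : Submodule ℤ _) : Set (CuspForm (Gamma0 N) k))) := by
    refine (Submodule.span_le.mpr ?_) (le_span_rational _ hV ⟨f, rfl⟩)
    rintro _ ⟨⟨g, rfl⟩, hq⟩
    have hgrat : ∀ n, ∃ q : ℚ, (q : ℂ) = qCoeff g n := by
      intro n
      refine exists_rat_of_forall_ringHom fun σ => ?_
      obtain ⟨g', hg'⟩ := exists_conj_cuspForm σ g
      have : g' = g := hT (funext fun i => by
        obtain ⟨q, hq⟩ := hq i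
        show qCoeff g' i = qCoeff g i
        rw [hg']
        change (q : ℂ) = qCoeff g i at hq
        rw [← hq]
        simp)
      rw [← hg', this]
    obtain ⟨L, hL, hmem⟩ := exists_multiple_mem_intLattice hgrat
    refine ⟨g, ?_, rfl⟩
    have h : g = ((L : ℂ))⁻¹ • (L • g) := by
      rw [← Int.cast_smul_eq_zsmul ℂ, inv_smul_smul₀ (Int.cast_ne_zero.mpr hL)]
    rw [h]
    exact Submodule.smul_mem _ _ (Submodule.subset_span hmem)
  obtain ⟨f', hf', hff'⟩ := hmem
  exact hT hff' ▸ hf'

/-- The Hecke algebra is finite over `ℤ`. -/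
theorem moduleFinite_heckeAlgebra (N : ℕ) [NeZero N] (k : ℤ) (S : Set ℕ) :
    Module.Finite ℤ (CuspForm.heckeAlgebra N k S) := by
  rcases lt_or_ge 0 k with hk | hk
  · exact moduleFinite_heckeAlgebra_of_structure (by omega) (hasIntegralStructure N k) S
  · haveI : Subsingleton (CuspForm (Gamma0 N) k) :=
      ⟨fun f g => by rw [cuspForm_eq_zero_of_weight_nonpos hk f,
        cuspForm_eq_zero_of_weight_nonpos hk g]⟩
    haveI : Subsingleton (Module.End ℂ (CuspForm (Gamma0 N) k)) :=
      ⟨fun s t => LinearMap.ext fun f => Subsingleton.elim _ _⟩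
    infer_instance

end

end FLTAgent.CuspForms
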