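import Fermat.Agent.CuspForms.HeckeDual
import Fermat.Agent.CuspForms.IntegralStructure

/-!
The character of the full Hecke algebra on a normalised eigenform, and characters on the
polynomial ring of the good Hecke operators.
-/

set_option autoImplicit false

open CongruenceSubgroup ModularFormClass

namespace FLTAgent.CuspForms

noncomputable section

variable {N : ℕ} [NeZero N] {g : CuspForm (Gamma0 N) 2}

theorem qCoeff_recursion (hg : g.IsNormalizedEigenform) {p : ℕ} (hp : p.Prime) (n : ℕ) :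
    qCoeff g (p * n) + (heckeWeight N p : ℂ) * (if p ∣ n then qCoeff g (n / p) else 0) =
      qCoeff g p * qCoeff g n := by
  rcases Nat.eq_zero_or_pos n with rfl | hn
  · simp [qCoeff_zero_index]
  obtain ⟨r, m, hm, rfl⟩ := Nat.exists_eq_pow_mul_and_not_dvd hn.ne' p hp.ne_one
  have hcop : ∀ k, (p ^ k).Coprime m := fun k =>
    Nat.Coprime.pow_left k (hp.coprime_iff_not_dvd.2 hm)
  rcases r with - | r
  · rw [pow_zero, one_mul, if_neg hm, mul_zero, add_zero,
      hg.qCoeff_mul_of_coprime p m (hp.coprime_iff_not_dvd.2 hm)]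
  rw [if_pos (dvd_mul_of_dvd_left (dvd_pow_self p (Nat.succ_ne_zero r)) m),
    show p ^ (r + 1) * m / p = p ^ r * m by
      rw [pow_succ', mul_assoc, Nat.mul_div_cancel_left _ hp.pos],
    show p * (p ^ (r + 1) * m) = p ^ (r + 2) * m by ring,
    hg.qCoeff_mul_of_coprime _ _ (hcop _), hg.qCoeff_mul_of_coprime _ _ (hcop _),
    hg.qCoeff_mul_of_coprime _ _ (hcop _)]
  by_cases h : p ∣ N
  · rw [hg.qCoeff_prime_pow_of_dvd p r hp h]
    simp [heckeWeight, h]
    ring
  · rw [hg.qCoeff_prime_pow_of_not_dvd p r hp h]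
    simp [heckeWeight, h]
    ring

/-- A normalised eigenform is an eigenvector of each generator. -/
theorem heckeGen_apply_eigen (hg : g.IsNormalizedEigenform) (p : ℕ) (hp : p.Prime) :
    (heckeGen N p hp : Module.End ℂ (CuspForm (Gamma0 N) 2)) g = qCoeff g p • g := by
  rw [← sub_eq_zero]
  apply eq_zero_of_qCoeff
  intro n
  rw [← qcLin_apply, map_sub, map_smul, qcLin_apply, qcLin_apply, qCoeff_heckeGen,
    qCoeff_recursion hg hp, smul_eq_mul, sub_self]

/-- A normalised eigenform is an eigenvector of the whole algebra. -/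
theorem exists_eigenvalue (hg : g.IsNormalizedEigenform)
    (t : CuspForm.heckeAlgebra N 2 (∅ : Set ℕ)) :
    ∃ c : ℂ, (t : Module.End ℂ (CuspForm (Gamma0 N) 2)) g = c • g := by
  obtain ⟨t, ht⟩ := t
  induction ht using Algebra.adjoin_induction with
  | mem x hx =>
    rcases hx with ⟨l, hl, hlN, hlS, rfl⟩ | ⟨q, hqN, hq, hqS, rfl⟩
    · have h := heckeGen_apply_eigen hg l hl
      rw [heckeGen, dif_neg hlN] at h
      exact ⟨_, h⟩
    · have h := heckeGen_apply_eigen hg q hq
      rw [heckeGen, dif_pos hqN] at h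
      exact ⟨_, h⟩
  | algebraMap c =>
    refine ⟨(c : ℂ), ?_⟩
    show (algebraMap ℤ (Module.End ℂ (CuspForm (Gamma0 N) 2)) c) g = _
    rw [eq_intCast, Module.End.intCast_apply, Int.cast_smul_eq_zsmul]
  | add x y hx hy ih ih' =>
    obtain ⟨a, ha⟩ := ih
    obtain ⟨b, hb⟩ := ih'
    exact ⟨a + b, by rw [LinearMap.add_apply, ha, hb, add_smul]⟩
  | mul x y hx hy ih ih' =>
    obtain ⟨a, ha⟩ := ih
    obtain ⟨b, hb⟩ := ih'
    exact ⟨a * b, by rw [Module.End.mul_apply, hb, map_smul, ha, smul_smul, mul_comm]⟩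

/-- The character of a normalised eigenform. -/
def eigenChar (hg : g.IsNormalizedEigenform) :
    CuspForm.heckeAlgebra N 2 (∅ : Set ℕ) →+* ℂ where
  toFun t := qCoeff ⇑((t : Module.End ℂ (CuspForm (Gamma0 N) 2)) g) 1
  map_one' := hg.qCoeff_one
  map_mul' s t := by
    obtain ⟨a, ha⟩ := exists_eigenvalue hg s
    obtain ⟨b, hb⟩ := exists_eigenvalue hg t
    rw [MulMemClass.coe_mul, Module.End.mul_apply, hb, map_smul, ha, smul_smul, qCoeff_smul_form,
      qCoeff_smul_form, qCoeff_smul_form, hg.qCoeff_one]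
    ring
  map_zero' := by
    rw [ZeroMemClass.coe_zero, LinearMap.zero_apply, ← qcLin_apply, map_zero]
  map_add' s t := by
    rw [AddMemClass.coe_add, LinearMap.add_apply, qCoeff_add_form]

theorem apply_eq_eigenChar_smul (hg : g.IsNormalizedEigenform)
    (t : CuspForm.heckeAlgebra N 2 (∅ : Set ℕ)) :
    (t : Module.End ℂ (CuspForm (Gamma0 N) 2)) g = eigenChar hg t • g := by
  obtain ⟨a, ha⟩ := exists_eigenvalue hg t
  show _ = qCoeff ⇑((t : Module.End ℂ (CuspForm (Gamma0 N) 2)) g) 1 • g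
  rw [ha, qCoeff_smul_form, hg.qCoeff_one, mul_one]

theorem eigenChar_heckeGen (hg : g.IsNormalizedEigenform) (p : ℕ) (hp : p.Prime) :
    eigenChar hg (heckeGen N p hp) = qCoeff g p := by
  show qCoeff ⇑((heckeGen N p hp : Module.End ℂ (CuspForm (Gamma0 N) 2)) g) 1 = _
  rw [heckeGen_apply_eigen hg p hp, qCoeff_smul_form, hg.qCoeff_one, mul_one]

end

end FLTAgent.CuspForms
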