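import Mathlib
import Fermat.Prelude.Thm_ModularForm_sturm_bound_Gamma0
import Fermat.Prelude.Thm_CongruenceSubgroup_one_mem_strictPeriods_Gamma0

set_option autoImplicit false

open scoped MatrixGroups

namespace FLTAgent.CuspForms

/-- A weight-two cusp form on `Γ₀(N)` vanishes as soon as the Sturm bound is zero. -/
theorem eq_zero_of_index_lt_six (N : ℕ) [NeZero N]
    (hN : (CongruenceSubgroup.Gamma0 N).index < 6)
    (f : CuspForm (CongruenceSubgroup.Gamma0 N) 2) : f = 0 := by
  have h0 : ((f : ModularForm (CongruenceSubgroup.Gamma0 N) 2)) = 0 := by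
    apply ModularForm.sturm_bound_Gamma0 N
    intro n hn
    have : n = 0 := by
      have : ((2 : ℤ) * (CongruenceSubgroup.Gamma0 N).index).toNat / 12 = 0 := by
        apply Nat.div_eq_of_lt
        omega
      omega
    subst this
    exact CuspFormClass.qExpansion_coeff_zero f one_pos
      (CongruenceSubgroup.one_mem_strictPeriods_Gamma0 N)
  ext z
  exact DFunLike.congr_fun h0 z

theorem index_Gamma0_one : (CongruenceSubgroup.Gamma0 1).index = 1 := by
  rw [Subgroup.index_eq_one]
  ext x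
  simp [CongruenceSubgroup.Gamma0_mem, Subsingleton.elim _ (0 : ZMod 1)]

theorem index_Gamma0_two_le : (CongruenceSubgroup.Gamma0 2).index ≤ 4 := by
  let col : SL(2, ℤ) → ZMod 2 × ZMod 2 := fun g => ((g 0 0 : ZMod 2), (g 1 0 : ZMod 2))
  have key : ∀ g h : SL(2, ℤ), (QuotientGroup.leftRel (CongruenceSubgroup.Gamma0 2)) g h ↔
      col g = col h := by
    intro g h
    rw [QuotientGroup.leftRel_apply, CongruenceSubgroup.Gamma0_mem]
    have hg : ((g 0 0 : ZMod 2)) * (g 1 1 : ZMod 2) - (g 0 1 : ZMod 2) * (g 1 0 : ZMod 2) = 1 := by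
      have := g.2
      rw [Matrix.det_fin_two] at this
      exact_mod_cast congrArg (Int.cast : ℤ → ZMod 2) this
    have hh : ((h 0 0 : ZMod 2)) * (h 1 1 : ZMod 2) - (h 0 1 : ZMod 2) * (h 1 0 : ZMod 2) = 1 := by
      have := h.2
      rw [Matrix.det_fin_two] at this
      exact_mod_cast congrArg (Int.cast : ℤ → ZMod 2) this
    have e : (((g⁻¹ * h : SL(2, ℤ)) 1 0 : ℤ) : ZMod 2)
        = -(g 1 0 : ZMod 2) * (h 0 0 : ZMod 2) + (g 0 0 : ZMod 2) * (h 1 0 : ZMod 2) := by
      simp [Matrix.SpecialLinearGroup.coe_inv, Matrix.adjugate_fin_two, Matrix.mul_apply,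
        Fin.sum_univ_two]
    rw [e]
    simp only [col, Prod.mk.injEq]
    generalize (g 0 0 : ZMod 2) = a at hg ⊢
    generalize (g 0 1 : ZMod 2) = b at hg ⊢
    generalize (g 1 0 : ZMod 2) = c at hg ⊢
    generalize (g 1 1 : ZMod 2) = d at hg ⊢
    generalize (h 0 0 : ZMod 2) = a' at hh ⊢
    generalize (h 0 1 : ZMod 2) = b' at hh ⊢
    generalize (h 1 0 : ZMod 2) = c' at hh ⊢
    generalize (h 1 1 : ZMod 2) = d' at hh ⊢
    revert hg hh
    revert a b c d a' b' c' d'
    decide
  have hinj : Function.Injective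
      (Quotient.lift col (fun g h hgh => (key g h).mp hgh) :
        SL(2, ℤ) ⧸ CongruenceSubgroup.Gamma0 2 → ZMod 2 × ZMod 2) := by
    intro x y
    refine Quotient.inductionOn₂ x y fun g h hgh => Quotient.sound ((key g h).mpr hgh)
  calc (CongruenceSubgroup.Gamma0 2).index
      ≤ Nat.card (ZMod 2 × ZMod 2) := Nat.card_le_card_of_injective _ hinj
    _ = 4 := by simp

end FLTAgent.CuspForms
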