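import Fermat.Agent.CuspForms.HeckeDual
import Fermat.Prelude.Def_CuspForm_IntegralLattice
import Fermat.Prelude.Def_FormalHecke_Eigensystem
import Fermat.Prelude.Def_ModularForm_EisensteinChiNegThree

/-!
# The Deligne–Serre lifting lemma at the prime `3`
-/

set_option autoImplicit false
set_option linter.style.haveILetI false

open CongruenceSubgroup ModularFormClass EisensteinWeightOne

namespace FLTAgent.CuspForms

noncomputable section

variable {N : ℕ}

theorem mem_bot_subring_iff (x : ℂ) : x ∈ (⊥ : Subring ℂ) ↔ ∃ m : ℤ, x = (m : ℂ) := by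
  rw [Subring.mem_bot]
  exact ⟨fun ⟨m, hm⟩ => ⟨m, hm.symm⟩, fun ⟨m, hm⟩ => ⟨m, hm.symm⟩⟩

theorem qIntegralSet_eq : CuspForm.qIntegralSet N = (CuspForm.intLattice N 2 : Set _) := by
  ext f
  simp only [CuspForm.qIntegralSet, Set.mem_ofPred_eq, SetLike.mem_coe, mem_intLattice_iff,
    mem_bot_subring_iff]

theorem hasIntegralStructure_of_hasIntegralBasis (h : CuspForm.HasIntegralBasis N) :
    CuspForm.HasIntegralStructure N 2 := by
  rw [CuspForm.HasIntegralBasis, qIntegralSet_eq] at h
  exact h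

theorem hasIntegralBasis_of_hasIntegralStructure (h : CuspForm.HasIntegralStructure N 2) :
    CuspForm.HasIntegralBasis N := by
  rw [CuspForm.HasIntegralBasis, qIntegralSet_eq]
  exact h

theorem chiNegThree_congr (n : ℕ) : (3 : ℤ) ∣ chiNegThree n - n := by
  simp only [chiNegThree]
  split_ifs <;> omega

theorem bridgeProduct_coeff_congr (a : ℕ → ℤ) (n : ℕ) :
    (3 : ℤ) ∣ (bridgeProduct a).coeff n - a n := by
  rw [bridgeProduct, PowerSeries.coeff_mul, Finset.Nat.sum_antidiagonal_eq_sum_range_succ_mk,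
    Finset.sum_range_succ]
  simp only [PowerSeries.coeff_mk, e1Chi3In, PowerSeries.coeff_map, e1Chi3, Nat.sub_self,
    if_pos, eq_intCast, Int.cast_id, mul_one, add_sub_cancel_right]
  refine Finset.dvd_sum fun i hi => dvd_mul_of_dvd_right ?_ _
  rw [if_neg (by have := Finset.mem_range.mp hi; omega)]
  exact dvd_mul_of_dvd_left (by norm_num) _

/-- Lifting a residual character of a finite torsion-free `ℤ`-algebra to characteristic zero. -/
theorem exists_lift_character {R : Type*} [CommRing R] [Module.Finite ℤ R] [IsAddTorsionFree R]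
    {p : ℕ} [Fact p.Prime] (φ : R →+* ZMod p) :
    ∃ (χ : R →+* integralClosure ℤ ℂ) (M' : Ideal (integralClosure ℤ ℂ)), M'.IsMaximal ∧
      (p : integralClosure ℤ ℂ) ∈ M' ∧ ∀ t, φ t = 0 → χ t ∈ M' := by
  haveI hmax : (RingHom.ker φ).IsMaximal :=
    RingHom.ker_isMaximal_of_surjective φ (ZMod.ringHom_surjective φ)
  obtain ⟨P, hP, hPle⟩ := Ideal.exists_minimalPrimes_le (bot_le : ⊥ ≤ RingHom.ker φ)
  haveI : P.IsPrime := hP.1.1
  haveI : IsDomain (R ⧸ P) := Ideal.Quotient.isDomain P
  have hPZ : ∀ z : ℤ, (z : R) ∈ P → z = 0 := by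
    intro z hz
    by_contra hz0
    have hnzd : (z : R) ∈ nonZeroDivisors R := by
      rw [mem_nonZeroDivisors_iff_right]
      intro x hx
      rw [mul_comm, ← zsmul_eq_mul] at hx
      exact (smul_eq_zero.mp hx).resolve_left hz0
    exact Set.disjoint_right.mp (Ideal.disjoint_nonZeroDivisors_of_mem_minimalPrimes hP) hnzd hz
  haveI : FaithfulSMul ℤ (R ⧸ P) := by
    rw [faithfulSMul_iff_algebraMap_injective, injective_iff_map_eq_zero]
    intro z hz
    rw [eq_intCast, ← map_intCast (Ideal.Quotient.mk P), Ideal.Quotient.eq_zero_iff_mem] at hz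
    exact hPZ z hz
  haveI : Module.IsTorsionFree ℤ (R ⧸ P) := FaithfulSMul.to_isTorsionFree ℤ (R ⧸ P)
  haveI : Algebra.IsIntegral ℤ (R ⧸ P) := Algebra.IsIntegral.of_finite ℤ _
  haveI : Algebra.IsAlgebraic ℤ (R ⧸ P) := Algebra.IsIntegral.isAlgebraic
  let L : (R ⧸ P) →ₐ[ℤ] ℂ := IsAlgClosed.lift
  have hinj : Function.Injective L := by
    rw [← AlgHom.coe_toRingHom, RingHom.injective_iff_ker_eq_bot]
    apply Ideal.eq_bot_of_comap_eq_bot (R := ℤ)
    rw [eq_bot_iff]
    intro z hz
    rw [Ideal.mem_comap, RingHom.mem_ker, AlgHom.coe_toRingHom, AlgHom.commutes] at hz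
    simpa using hz
  let χ : R →ₐ[ℤ] ℂ := L.comp (Ideal.Quotient.mkₐ ℤ P)
  let χc : R →ₐ[ℤ] integralClosure ℤ ℂ := χ.codRestrict _ fun t =>
    (Algebra.IsIntegral.isIntegral t).map χ
  have hker : RingHom.ker χc.toRingHom ≤ RingHom.ker φ := by
    intro t ht
    refine hPle ?_
    have ht' : χ t = 0 := congrArg Subtype.val (RingHom.mem_ker.mp ht)
    rw [← Ideal.Quotient.eq_zero_iff_mem]
    exact hinj (ht'.trans (map_zero _).symm)
  letI : Algebra R (integralClosure ℤ ℂ) := χc.toRingHom.toAlgebra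
  haveI : IsScalarTower ℤ R (integralClosure ℤ ℂ) :=
    IsScalarTower.of_algebraMap_eq fun z => (χc.commutes z).symm
  haveI : Algebra.IsIntegral ℤ (integralClosure ℤ ℂ) := inferInstance
  haveI : Algebra.IsIntegral R (integralClosure ℤ ℂ) :=
    Algebra.IsIntegral.tower_top (R := ℤ)
  obtain ⟨M', hM', hcomap⟩ :=
    Ideal.exists_ideal_over_maximal_of_isIntegral (S := integralClosure ℤ ℂ) (RingHom.ker φ) hker
  have hmem : ∀ t, φ t = 0 → χc.toRingHom t ∈ M' := fun t ht => by
    have : t ∈ M'.comap (algebraMap R (integralClosure ℤ ℂ)) := hcomap ▸ RingHom.mem_ker.mpr ht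
    exact this
  refine ⟨χc.toRingHom, M', hM', ?_, hmem⟩
  have h3 := hmem (p : R) (by rw [map_natCast, ZMod.natCast_self])
  rwa [map_natCast] at h3

variable [NeZero N]

/-- The lifting lemma. -/
theorem exists_eigenform_congr_three (h : CuspForm.HasIntegralBasis N) {a : ℕ → ℤ}
    (heig : FormalHecke.IsEigensystem
      (fun ℓ => if ℓ ∣ N then 0 else ((chiNegThree ℓ : ℤ) : ℤ)) a)
    (hreal : CuspForm.IsLatticeRealized N a) :
    ∃ (f : CuspForm (Gamma0 N) 2) (_ : f.IsNormalizedEigenform)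
      (𝔪' : Ideal (integralClosure ℤ ℂ)), 𝔪'.IsMaximal ∧
      ((3 : ℕ) : integralClosure ℤ ℂ) ∈ 𝔪' ∧
      ∀ (ℓ : ℕ) (_ : ℓ.Prime) (_ : ¬ ℓ ∣ N),
        ∃ c : integralClosure ℤ ℂ, (c : ℂ) = ModularFormClass.qCoeff f ℓ ∧
          c - (a ℓ : integralClosure ℤ ℂ) ∈ 𝔪' := by
  classical
  have hS := hasIntegralStructure_of_hasIntegralBasis h
  obtain ⟨f, hf, af, haf, hcong⟩ := hreal
  rw [qIntegralSet_eq] at hf
  obtain ⟨ha1, hae⟩ := heig
  have hfa : ∀ n, (af n : ZMod 3) = (a n : ZMod 3) := by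
    intro n
    rw [ZMod.intCast_eq_intCast_iff_dvd_sub]
    have := dvd_add (hcong n) (bridgeProduct_coeff_congr a n)
    rw [sub_add_sub_cancel] at this
    exact (dvd_sub_comm).mp this
  -- reduction mod 3 of the coefficients of `t f`
  let T := CuspForm.heckeAlgebra N 2 (∅ : Set ℕ)
  have hint : ∀ (t : T) (n : ℕ), ∃ m : ℤ,
      qCoeff ⇑((t : Module.End ℂ (CuspForm (Gamma0 N) 2)) f) n = (m : ℂ) := fun t n =>
    (mem_intLattice_iff _).mp
      (CuspForm.mem_intLattice_of_mem_heckeAlgebra (by norm_num) t.2 hf) n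
  choose m hm using hint
  let φ : T → ZMod 3 := fun t => (m t 1 : ZMod 3)
  have hm_add : ∀ s t n, m (s + t) n = m s n + m t n := by
    intro s t n
    apply Int.cast_injective (α := ℂ)
    push_cast
    rw [← hm, ← hm, ← hm, ← qCoeff_add_form]
    rfl
  have hm_alg : ∀ (c : ℤ) n, m (algebraMap ℤ T c) n = c * af n := by
    intro c n
    apply Int.cast_injective (α := ℂ)
    push_cast
    rw [← hm, haf, ← qCoeff_zsmul_form]
    congr 2
  -- the coefficients of `t f` are congruent to a multiple of those of `f`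
  have hgen : ∀ p (hp : p.Prime) n, (m (heckeGen N p hp) n : ZMod 3) = (a p : ZMod 3) * a n := by
    intro p hp n
    have e1 : (m (heckeGen N p hp) n : ℂ) =
        ((af (p * n) + (heckeWeight N p : ℤ) * (if p ∣ n then af (n / p) else 0) : ℤ) : ℂ) := by
      rw [← hm, qCoeff_heckeGen p hp f n]
      push_cast [haf]
      split_ifs <;> simp [haf]
    have hw : (((heckeWeight N p : ℕ) : ℤ) : ZMod 3) =
        (((fun ℓ => if ℓ ∣ N then 0 else ((chiNegThree ℓ : ℤ) : ℤ)) p : ℤ) : ZMod 3) := by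
      dsimp only
      by_cases hN : p ∣ N
      · simp [heckeWeight, hN]
      · simp only [heckeWeight, hN, if_false]
        rw [ZMod.intCast_eq_intCast_iff_dvd_sub]
        exact chiNegThree_congr p
    rw [Int.cast_injective e1, ← Int.cast_mul, ← hae p hp n, Int.cast_add, Int.cast_add,
      Int.cast_mul, Int.cast_mul, hw, hfa]
    split_ifs <;> simp [hfa]
  have hmul : ∀ s t : T, (∀ n, (m t n : ZMod 3) = φ t * (a n : ZMod 3)) →
      ∀ j, (m (s * t) j : ZMod 3) = φ t * (m s j : ZMod 3) := by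
    intro s t ht
    have hd : ∀ n, (3 : ℤ) ∣ (m t n - m t 1 * af n) := by
      intro n
      have h3 : ((m t n - m t 1 * af n : ℤ) : ZMod 3) = 0 := by
        push_cast
        rw [ht n, hfa, sub_eq_zero]
      exact_mod_cast (ZMod.intCast_zmod_eq_zero_iff_dvd _ 3).mp h3
    choose d hd using hd
    set g : CuspForm (Gamma0 N) 2 :=
      (3 : ℂ)⁻¹ • ((t : Module.End ℂ (CuspForm (Gamma0 N) 2)) f - (m t 1) • f) with hgdef
    have hgL : g ∈ CuspForm.intLattice N 2 := by
      rw [mem_intLattice_iff]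
      intro j
      refine ⟨d j, ?_⟩
      rw [hgdef, qCoeff_smul_form, qCoeff_sub_form, qCoeff_zsmul_form, hm, ← haf]
      have := congrArg (fun z : ℤ => (z : ℂ)) (hd j)
      push_cast at this
      rw [this]
      ring
    have htf : (t : Module.End ℂ (CuspForm (Gamma0 N) 2)) f =
        (m t 1 : ℂ) • f + (3 : ℂ) • g := by
      rw [hgdef, smul_inv_smul₀ (by norm_num : (3 : ℂ) ≠ 0), Int.cast_smul_eq_zsmul,
        add_sub_cancel]
    intro j
    obtain ⟨e, he⟩ := (mem_intLattice_iff _).mp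
      (CuspForm.mem_intLattice_of_mem_heckeAlgebra (by norm_num) s.2 hgL) j
    have hst : m (s * t) j = m t 1 * m s j + 3 * e := by
      apply Int.cast_injective (α := ℂ)
      push_cast
      rw [← hm (s * t), ← hm s, MulMemClass.coe_mul, Module.End.mul_apply, htf, map_add, map_smul,
        map_smul, qCoeff_add_form, qCoeff_smul_form, qCoeff_smul_form, he]
    simp only [φ, hst]
    push_cast [show (3 : ZMod 3) = 0 from by decide]
    ring
  let A : Subalgebra ℤ T :=
    { carrier := {t | ∀ n, (m t n : ZMod 3) = φ t * (a n : ZMod 3)}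
      one_mem' := fun n => by
        have h1 : ∀ n, m (1 : T) n = af n := fun n => by
          have := hm_alg 1 n
          rwa [map_one, one_mul] at this
        simp [φ, h1, hfa, ha1]
      zero_mem' := fun n => by
        have h0 : ∀ n, m (0 : T) n = 0 := fun n => by
          have := hm_alg 0 n
          rwa [map_zero, zero_mul] at this
        simp [φ, h0]
      add_mem' := fun {s t} hs ht n => by
        simp only [φ, hm_add, Int.cast_add] at *
        rw [hs n, ht n]; ring
      algebraMap_mem' := fun c n => by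
        simp only [φ, hm_alg]
        push_cast
        rw [hfa, hfa 1, ha1]
        push_cast
        ring
      mul_mem' := fun {s t} hs ht n => by
        have h1 : φ (s * t) = φ t * φ s := hmul s t ht 1
        rw [h1, hmul s t ht n, hs n]
        ring }
  have hA : ∀ t : T, t ∈ A := by
    have hsub : CuspForm.heckeAlgebra N 2 (∅ : Set ℕ) ≤ A.map T.val := by
      rw [CuspForm.heckeAlgebra]
      refine Algebra.adjoin_le ?_
      rintro x (⟨p, hp, hpN, -, rfl⟩ | ⟨p, hpN, hp, -, rfl⟩)
      · refine ⟨heckeGen N p hp, fun n => ?_, by simp [heckeGen, hpN]⟩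
        simp only [φ, hgen, ha1, Int.cast_one, mul_one]
      · refine ⟨heckeGen N p hp, fun n => ?_, by simp [heckeGen, hpN]⟩
        simp only [φ, hgen, ha1, Int.cast_one, mul_one]
    intro t
    obtain ⟨u, hu, hut⟩ := hsub t.2
    rwa [← Subtype.ext (show (u : Module.End ℂ (CuspForm (Gamma0 N) 2)) = t from hut)]
  let φ' : T →+* ZMod 3 :=
    { toFun := φ
      map_one' := by
        have := hm_alg 1 1
        rw [map_one, one_mul] at this
        simp [φ, this, hfa, ha1]
      map_zero' := by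
        have := hm_alg 0 1
        rw [map_zero, zero_mul] at this
        simp [φ, this]
      map_add' := fun s t => by simp [φ, hm_add]
      map_mul' := fun s t => (hmul s t (hA t) 1).trans (mul_comm _ _) }
  haveI : Fact (Nat.Prime 3) := ⟨by norm_num⟩
  haveI : Module.Finite ℤ T := moduleFinite_heckeAlgebra_of_structure (by norm_num) hS ∅
  obtain ⟨χ, M', hM', h3, hmem⟩ := exists_lift_character φ'
  obtain ⟨g, hg, hgval⟩ :=
    exists_eigenform_of_ringHom hS ((integralClosure ℤ ℂ).val.toRingHom.comp χ)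
  refine ⟨g, hg, M', hM', h3, fun ℓ hℓ _ => ⟨χ (heckeGen N ℓ hℓ), (hgval ℓ hℓ).symm, ?_⟩⟩
  have := hmem (heckeGen N ℓ hℓ - (a ℓ : T)) (by
    rw [map_sub, map_intCast, sub_eq_zero]
    show φ _ = _
    simp [φ, hgen, ha1])
  rwa [map_sub, map_intCast] at this

end

end FLTAgent.CuspForms
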