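import Mathlib

/-!
# Descent of coefficients from `ℂ` to `ℚ`, and bounded denominators for power series
-/

set_option autoImplicit false
set_option linter.style.haveILetI false

namespace FLTAgent.CuspForms

noncomputable section

/-! ### The fixed field of all endomorphisms of `ℂ` -/

theorem exists_ringHom_extend {ι : Type} {K : Type} [Field K] [Algebra K ℂ] (v : ι → ℂ)
    (hv : IsTranscendenceBasis K v) (σ₀ : K ≃+* K) (π : ι ≃ ι) :
    ∃ σ : ℂ →+* ℂ, (∀ x, σ (algebraMap K ℂ x) = algebraMap K ℂ (σ₀ x)) ∧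
      ∀ i, σ (v i) = v (π i) := by
  letI := IsAlgClosed.isAlgClosure_of_transcendence_basis v hv
  let e₀ : MvPolynomial ι K ≃+* MvPolynomial ι K :=
    (MvPolynomial.mapEquiv ι σ₀).trans (MvPolynomial.renameEquiv K π).toRingEquiv
  let e : Algebra.adjoin K (Set.range v) ≃+* Algebra.adjoin K (Set.range v) :=
    hv.1.aevalEquiv.symm.toRingEquiv.trans (e₀.trans hv.1.aevalEquiv.toRingEquiv)
  let σ : ℂ ≃+* ℂ := IsAlgClosure.equivOfEquiv ℂ ℂ e
  have hσ : ∀ p : MvPolynomial ι K,
      σ (MvPolynomial.aeval v p) = MvPolynomial.aeval v (e₀ p) := by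
    intro p
    have := IsAlgClosure.equivOfEquiv_algebraMap ℂ ℂ e (hv.1.aevalEquiv p)
    simpa [e, σ, AlgebraicIndependent.algebraMap_aevalEquiv] using this
  refine ⟨σ.toRingHom, fun x => ?_, fun i => ?_⟩
  · simpa [e₀] using hσ (MvPolynomial.C x)
  · simpa [e₀] using hσ (MvPolynomial.X i)

theorem exists_ringHom_ne {x : ℂ} (hx : ∀ q : ℚ, (q : ℂ) ≠ x) : ∃ σ : ℂ →+* ℂ, σ x ≠ x := by
  by_cases halg : IsAlgebraic ℚ x
  · haveI : IsAlgClosed (algebraicClosure ℚ ℂ) :=
      (algebraicClosure.isAlgClosure ℚ ℂ).isAlgClosed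
    haveI : Algebra.IsAlgebraic ℚ (algebraicClosure ℚ ℂ) :=
      algebraicClosure.isAlgebraic ℚ ℂ
    haveI : Normal ℚ (algebraicClosure ℚ ℂ) :=
      ⟨fun x => IsAlgClosed.splits _⟩
    haveI : IsGalois ℚ (algebraicClosure ℚ ℂ) := IsGalois.mk
    let x' : algebraicClosure ℚ ℂ := ⟨x, mem_algebraicClosure_iff.mpr halg⟩
    have hx' : x' ∉ (⊥ : IntermediateField ℚ (algebraicClosure ℚ ℂ)) := by
      rw [IntermediateField.mem_bot]
      rintro ⟨q, hq⟩
      exact hx q (by simpa [x'] using congrArg Subtype.val hq)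
    rw [InfiniteGalois.mem_bot_iff_fixed] at hx'
    push Not at hx'
    obtain ⟨σ₀, hσ₀⟩ := hx'
    obtain ⟨s, hs⟩ := exists_isTranscendenceBasis (algebraicClosure ℚ ℂ) ℂ
    obtain ⟨σ, hσ, -⟩ := exists_ringHom_extend _ hs σ₀.toRingEquiv (Equiv.refl _)
    refine ⟨σ, fun h => hσ₀ (Subtype.ext ?_)⟩
    rw [← show σ x = ((σ₀ x' : algebraicClosure ℚ ℂ) : ℂ) from hσ x']
    exact h
  · have hind : AlgebraicIndepOn ℚ id ({x} : Set ℂ) := by
      rw [AlgebraicIndepOn, algebraicIndependent_singleton_iff ⟨x, Set.mem_singleton x⟩]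
      exact halg
    obtain ⟨s, hxs, hs⟩ := exists_isTranscendenceBasis_superset hind
    have hcard : Cardinal.mk ℂ = Cardinal.mk s :=
      IsAlgClosed.cardinal_eq_cardinal_transcendence_basis_of_aleph0_lt' _ hs Cardinal.mkRat.le
        (by rw [Cardinal.mk_complex]; exact Cardinal.aleph0_lt_continuum)
    haveI : Infinite s := by
      rw [Cardinal.infinite_iff, ← hcard]
      exact Cardinal.aleph0_le_mk ℂ
    obtain ⟨y, hy⟩ := exists_ne (⟨x, hxs rfl⟩ : s)
    classical
    obtain ⟨σ, -, hσ⟩ := exists_ringHom_extend _ hs (RingEquiv.refl ℚ)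
      (Equiv.swap (⟨x, hxs rfl⟩ : s) y)
    refine ⟨σ, fun h => hy (Subtype.ext ?_)⟩
    have := hσ ⟨x, hxs rfl⟩
    rw [Equiv.swap_apply_left] at this
    exact this.symm.trans h

theorem exists_rat_of_forall_ringHom {x : ℂ} (h : ∀ σ : ℂ →+* ℂ, σ x = x) : ∃ q : ℚ, (q : ℂ) = x := by
  by_contra hne
  push Not at hne
  obtain ⟨σ, hσ⟩ := exists_ringHom_ne hne
  exact hσ (h σ)

/-! ### Galois descent for subspaces of a coordinate space -/

/-- A subspace stable under all field endomorphisms is spanned by its rational vectors. -/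
theorem le_span_rational {ι : Type*} [Finite ι] (V : Submodule ℂ (ι → ℂ))
    (hV : ∀ σ : ℂ →+* ℂ, ∀ v ∈ V, (fun i => σ (v i)) ∈ V) :
    V ≤ Submodule.span ℂ {v | v ∈ V ∧ ∀ i, ∃ q : ℚ, (q : ℂ) = v i} := by
  classical
  haveI := Fintype.ofFinite ι
  let supp : (ι → ℂ) → Finset ι := fun v => Finset.univ.filter fun i => v i ≠ 0
  intro v hv
  induction hn : (supp v).card using Nat.strong_induction_on generalizing v with
  | _ n ih =>
    subst hn
    by_cases hv0 : v = 0
    · subst hv0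
      exact Submodule.zero_mem _
    -- a non-zero element of `V` of minimal support inside the support of `v`
    obtain ⟨w, hwS, hwmin⟩ := Finset.exists_min_image
      ((supp v).powerset.filter fun t => ∃ w ∈ V, w ≠ 0 ∧ supp w = t) Finset.card
      ⟨supp v, Finset.mem_filter.mpr ⟨Finset.mem_powerset_self _, v, hv, hv0, rfl⟩⟩
    obtain ⟨hwsub, w, hwV, hw0, rfl⟩ := Finset.mem_filter.mp hwS
    obtain ⟨i, hi⟩ : ∃ i, w i ≠ 0 := by
      by_contra h
      push Not at h
      exact hw0 (funext h)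
    have hmem_supp : ∀ (u : ι → ℂ) j, j ∈ supp u ↔ u j ≠ 0 := fun u j => by simp [supp]
    set w' : ι → ℂ := (w i)⁻¹ • w with hw'
    have hw'V : w' ∈ V := V.smul_mem _ hwV
    have hw'i : w' i = 1 := by simp [hw', hi]
    have hrat : ∀ j, ∃ q : ℚ, (q : ℂ) = w' j := by
      intro j
      refine exists_rat_of_forall_ringHom fun σ => ?_
      set u : ι → ℂ := (fun i => σ (w' i)) - w' with hu
      have huV : u ∈ V := V.sub_mem (hV σ w' hw'V) hw'V
      by_contra hne
      have hu0 : u ≠ 0 := fun h => hne (sub_eq_zero.mp (congrFun h j))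
      have hlt : supp u ⊂ supp w := by
        rw [Finset.ssubset_iff_of_subset]
        · exact ⟨i, (hmem_supp _ _).mpr hi, fun h => (hmem_supp _ _).mp h (by
            simp [hu, hw'i])⟩
        · intro l hl
          rw [hmem_supp] at hl ⊢
          intro h0
          exact hl (by simp [hu, hw', h0])
      have hmin := hwmin (supp u) (Finset.mem_filter.mpr
        ⟨Finset.mem_powerset.mpr (hlt.subset.trans (Finset.mem_powerset.mp hwsub)),
          u, huV, hu0, rfl⟩)
      exact absurd (Finset.card_lt_card hlt) (not_lt.mpr hmin)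
    have hlt : supp (v - v i • w') ⊂ supp v := by
      rw [Finset.ssubset_iff_of_subset]
      · exact ⟨i, Finset.mem_powerset.mp hwsub ((hmem_supp _ _).mpr hi),
          fun h => (hmem_supp _ _).mp h (by simp [hw'i])⟩
      · intro l hl
        rw [hmem_supp] at hl ⊢
        intro h0
        apply hl
        have : w l = 0 := by
          by_contra hwl
          exact (hmem_supp _ _).mp (Finset.mem_powerset.mp hwsub ((hmem_supp _ _).mpr hwl)) h0
        simp [hw', h0, this]
    have := ih _ (Finset.card_lt_card hlt) (V.sub_mem hv (V.smul_mem _ hw'V)) rfl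
    rw [← sub_add_cancel v (v i • w')]
    exact Submodule.add_mem _ this
      (Submodule.smul_mem _ _ (Submodule.subset_span ⟨hw'V, hrat⟩))

/-! ### Power series with integral coefficients -/

/-- The inclusion `ℤ⟦X⟧ → ℂ⟦X⟧`. -/
def intIncl : PowerSeries ℤ →+* PowerSeries ℂ := PowerSeries.map (Int.castRingHom ℂ)

@[simp] theorem coeff_intIncl (s : PowerSeries ℤ) (n : ℕ) :
    PowerSeries.coeff n (intIncl s) = ((PowerSeries.coeff n s : ℤ) : ℂ) := by
  simp [intIncl, PowerSeries.coeff_map]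

theorem intIncl_injective : Function.Injective intIncl :=
  PowerSeries.map_injective _ Int.cast_injective

/-- The `ℂ`-span of the series with integer coefficients, as a subalgebra. -/
def intSpan : Subalgebra ℂ (PowerSeries ℂ) :=
  Submodule.toSubalgebra (Submodule.span ℂ (Set.range intIncl))
    (Submodule.subset_span ⟨1, map_one _⟩)
    (fun x y hx hy => by
      have h := Submodule.mul_mem_mul hx hy
      rw [Submodule.span_mul_span] at h
      refine Submodule.span_mono ?_ h
      rintro _ ⟨_, ⟨a, rfl⟩, _, ⟨b, rfl⟩, rfl⟩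
      exact ⟨a * b, map_mul _ _ _⟩)

theorem intIncl_mem_intSpan (s : PowerSeries ℤ) : intIncl s ∈ intSpan :=
  Submodule.subset_span ⟨s, rfl⟩

theorem mem_intSpan_iff {s : PowerSeries ℂ} :
    s ∈ intSpan ↔ s ∈ Submodule.span ℂ (Set.range intIncl) := Iff.rfl

theorem intCast_series_ne_zero {L : ℤ} (hL : L ≠ 0) : ((L : ℤ) : PowerSeries ℂ) ≠ 0 := by
  rw [← map_intCast (PowerSeries.C (R := ℂ)), ne_eq,
    map_eq_zero_iff _ PowerSeries.C_injective]
  exact_mod_cast hL

/-- Apply a `ℚ`-linear functional to every coefficient. -/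
def applyFun (φ : ℂ →ₗ[ℚ] ℚ) : PowerSeries ℂ →ₗ[ℚ] PowerSeries ℂ where
  toFun s := PowerSeries.mk fun n => (φ (PowerSeries.coeff n s) : ℂ)
  map_add' s t := by ext n; simp
  map_smul' c s := by
    ext n
    simp only [PowerSeries.coeff_mk, map_rat_smul, RingHom.id_apply, map_smul, smul_eq_mul,
      Rat.cast_mul]
    rw [Rat.smul_def]

theorem applyFun_mul_int (φ : ℂ →ₗ[ℚ] ℚ) (s : PowerSeries ℂ) (r : PowerSeries ℂ)
    (hr : ∀ n, ∃ q : ℚ, (q : ℂ) = PowerSeries.coeff n r) :
    applyFun φ (s * r) = applyFun φ s * r := by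
  choose q hq using hr
  ext n
  simp only [applyFun, LinearMap.coe_mk, AddHom.coe_mk, PowerSeries.coeff_mk, PowerSeries.coeff_mul,
    map_sum, Rat.cast_sum]
  refine Finset.sum_congr rfl fun p _ => ?_
  rw [← hq, show PowerSeries.coeff p.1 s * (q p.2 : ℂ) = q p.2 • PowerSeries.coeff p.1 s by
    rw [Rat.smul_def, mul_comm], map_smul, smul_eq_mul, Rat.cast_mul, mul_comm]

theorem exists_int_mul_applyFun (φ : ℂ →ₗ[ℚ] ℚ) {s : PowerSeries ℂ} (hs : s ∈ intSpan) :
    ∃ (L : ℤ) (t : PowerSeries ℤ), L ≠ 0 ∧ (L : PowerSeries ℂ) * applyFun φ s = intIncl t := by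
  obtain ⟨c, hc⟩ := Finsupp.mem_span_range_iff_exists_finsupp.mp (mem_intSpan_iff.mp hs)
  have happ : applyFun φ s = ∑ i ∈ c.support, (φ (c i) : ℂ) • intIncl i := by
    rw [← hc, Finsupp.sum, map_sum]
    refine Finset.sum_congr rfl fun i _ => ?_
    ext n
    simp only [applyFun, LinearMap.coe_mk, AddHom.coe_mk, PowerSeries.coeff_mk, map_smul,
      coeff_intIncl, smul_eq_mul]
    rw [mul_comm (c i), show ((PowerSeries.coeff n i : ℤ) : ℂ) * c i =
      ((PowerSeries.coeff n i : ℤ) : ℚ) • c i by rw [Rat.smul_def]; norm_cast, map_smul,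
      smul_eq_mul]
    push_cast
    ring
  obtain ⟨L, hL⟩ := IsLocalization.exist_integer_multiples (nonZeroDivisors ℤ) c.support
    (fun i => φ (c i))
  choose z hz using hL
  refine ⟨L, ∑ i ∈ c.support.attach, PowerSeries.C (z i.1 i.2) * i.1,
    nonZeroDivisors.coe_ne_zero L, ?_⟩
  rw [happ, ← Finset.sum_attach, Finset.mul_sum, map_sum]
  refine Finset.sum_congr rfl fun i _ => ?_
  ext n
  have hz' := congrArg (fun q : ℚ => (q : ℂ)) (hz i.1 i.2)
  simp only [eq_intCast, zsmul_eq_mul] at hz'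
  push_cast at hz'
  rw [show ((L : ℤ) : PowerSeries ℂ) = PowerSeries.C ((L : ℤ) : ℂ) from
    (map_intCast (PowerSeries.C (R := ℂ)) _).symm, PowerSeries.coeff_C_mul, coeff_intIncl,
    PowerSeries.coeff_C_mul, map_smul, coeff_intIncl, smul_eq_mul, Int.cast_mul, hz']
  ring

/-- A series with rational coefficients which is a ratio in `ℂ·ℤ⟦X⟧` and is integral over it has
bounded denominators. -/
theorem exists_int_mul_mem_intIncl {f A B : PowerSeries ℂ}
    (hf : ∀ n, ∃ q : ℚ, (q : ℂ) = PowerSeries.coeff n f)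
    (hA : A ∈ intSpan) (hA0 : A ≠ 0) (hB : B ∈ intSpan) (hfAB : f * A = B)
    (m : ℕ) (a : ℕ → PowerSeries ℂ) (ha : ∀ j, j < m → a j ∈ intSpan)
    (hrel : f ^ m + ∑ j ∈ Finset.range m, a j * f ^ j = 0) :
    ∃ (L : ℤ) (t : PowerSeries ℤ), L ≠ 0 ∧ (L : PowerSeries ℂ) * f = intIncl t := by
  -- rational form of the relation
  obtain ⟨φ₀, hφ₀⟩ : ∃ φ : ℂ →ₗ[ℚ] ℚ, φ 1 = 1 := by
    have h1 : (1 : ℂ) ≠ 0 := one_ne_zero
    obtain ⟨ψ, hψ⟩ := not_forall.mp (mt (Module.forall_dual_apply_eq_zero_iff ℚ (1 : ℂ)).mp h1)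
    exact ⟨(ψ 1)⁻¹ • ψ, by simp [hψ]⟩
  have hfpow : ∀ j n, ∃ q : ℚ, (q : ℂ) = PowerSeries.coeff n (f ^ j) := by
    choose q hq using hf
    intro j n
    refine ⟨PowerSeries.coeff n (PowerSeries.mk q ^ j), ?_⟩
    have : f = PowerSeries.map (Rat.castHom ℂ) (PowerSeries.mk q) := by
      ext n; simp [hq]
    rw [this, ← map_pow, PowerSeries.coeff_map]
    rfl
  have hfix : ∀ r : PowerSeries ℂ, (∀ n, ∃ q : ℚ, (q : ℂ) = PowerSeries.coeff n r) →
      applyFun φ₀ r = r := by
    intro r hr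
    have h1 : applyFun φ₀ 1 = 1 := by
      ext n
      simp [applyFun, PowerSeries.coeff_one, apply_ite φ₀, hφ₀, apply_ite (fun q : ℚ => (q : ℂ))]
    simpa [h1] using applyFun_mul_int φ₀ 1 r hr
  have hrel' : f ^ m + ∑ j ∈ Finset.range m, applyFun φ₀ (a j) * f ^ j = 0 := by
    have := congrArg (applyFun φ₀) hrel
    rw [map_add, map_sum, map_zero, hfix _ (hfpow m)] at this
    rwa [Finset.sum_congr rfl fun j _ => applyFun_mul_int φ₀ (a j) (f ^ j) (hfpow j)] at this
  choose! La ta hLa hta using fun j (hj : j < m) => exists_int_mul_applyFun φ₀ (ha j hj)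
  -- rational form of the ratio
  obtain ⟨n₀, hn₀⟩ : ∃ n, PowerSeries.coeff n A ≠ 0 := by
    by_contra h
    push Not at h
    exact hA0 (PowerSeries.ext fun n => by simp [h n])
  obtain ⟨φ₁, hφ₁⟩ := not_forall.mp
    (mt (Module.forall_dual_apply_eq_zero_iff ℚ _).mp hn₀)
  have hAB : applyFun φ₁ A * f = applyFun φ₁ B := by
    rw [← applyFun_mul_int φ₁ A f hf, mul_comm, hfAB]
  obtain ⟨LA, tA, hLA, htA⟩ := exists_int_mul_applyFun φ₁ hA
  obtain ⟨LB, tB, hLB, htB⟩ := exists_int_mul_applyFun φ₁ hB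
  have hA0' : applyFun φ₁ A ≠ 0 := fun h => hφ₁ (by
    simpa [applyFun] using congrArg (PowerSeries.coeff n₀) h)
  -- clear denominators
  set L : ℤ := (∏ j ∈ Finset.range m, La j) with hLdef
  have hL0 : L ≠ 0 := Finset.prod_ne_zero_iff.mpr fun j hj => hLa j (Finset.mem_range.mp hj)
  set g := (L : PowerSeries ℂ) * f with hg
  set c : ℕ → PowerSeries ℤ := fun j =>
    (L : PowerSeries ℤ) ^ (m - j - 1) * ((∏ i ∈ (Finset.range m).erase j, La i : ℤ) : PowerSeries ℤ)
      * ta j with hc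
  have hgrel : g ^ m + ∑ j ∈ Finset.range m, intIncl (c j) * g ^ j = 0 := by
    have h2 : (L : PowerSeries ℂ) ^ m * (f ^ m + ∑ j ∈ Finset.range m, applyFun φ₀ (a j) * f ^ j)
        = 0 := by rw [hrel', mul_zero]
    rw [mul_add, Finset.mul_sum, ← mul_pow] at h2
    rw [← h2]
    refine congrArg _ (Finset.sum_congr rfl fun j hj => ?_)
    have hj' := Finset.mem_range.mp hj
    have hsplit : (La j : PowerSeries ℂ) *
        ((∏ i ∈ (Finset.range m).erase j, La i : ℤ) : PowerSeries ℂ) = (L : PowerSeries ℂ) := by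
      rw [← Int.cast_mul, Finset.mul_prod_erase _ _ hj]
    rw [hc, map_mul, map_mul, map_pow, map_intCast, map_intCast, ← hta j hj', hg, mul_pow]
    have hpow : (L : PowerSeries ℂ) ^ m =
        (L : PowerSeries ℂ) ^ (m - j - 1) * L * (L : PowerSeries ℂ) ^ j := by
      rw [← pow_succ, ← pow_add]
      congr 1
      omega
    rw [hpow]
    conv_rhs => enter [1, 1, 2]; rw [← hsplit]
    ring
  set tA' : PowerSeries ℤ := (LB : PowerSeries ℤ) * tA with htA'
  set tB' : PowerSeries ℤ := (L * LA : ℤ) * tB with htB'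
  have hgAB : g * intIncl tA' = intIncl tB' := by
    rw [htA', htB', map_mul, map_mul, ← htA, ← htB, ← hAB, hg, map_intCast, map_intCast]
    push_cast
    ring
  have htA0 : tA' ≠ 0 := by
    intro h
    have := congrArg intIncl h
    rw [htA', map_mul, map_intCast, ← htA, map_zero, mul_eq_zero, mul_eq_zero] at this
    rcases this with h' | h' | h'
    · exact intCast_series_ne_zero hLB h'
    · exact intCast_series_ne_zero hLA h'
    · exact hA0' h'
  -- `ℤ⟦X⟧` is integrally closed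
  let K := FractionRing (PowerSeries ℤ)
  set y : K := algebraMap _ K tB' / algebraMap _ K tA' with hy
  have hy' : y * algebraMap _ K tA' = algebraMap _ K tB' :=
    div_mul_cancel₀ _ ((map_ne_zero_iff _ (IsFractionRing.injective _ K)).mpr htA0)
  have hint : IsIntegral (PowerSeries ℤ) y := by
    refine ⟨Polynomial.X ^ m + ∑ j ∈ Finset.range m, Polynomial.C (c j) * Polynomial.X ^ j,
      Polynomial.monic_X_pow_add ?_, ?_⟩
    · refine lt_of_le_of_lt (Polynomial.degree_sum_le _ _) ?_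
      refine (Finset.sup_lt_iff (a := ((m : ℕ) : WithBot ℕ)) (WithBot.bot_lt_coe m)).mpr ?_
      intro j hj
      exact lt_of_le_of_lt (Polynomial.degree_C_mul_X_pow_le _ _)
        (WithBot.coe_lt_coe.mpr (Finset.mem_range.mp hj))
    · have hz : tB' ^ m + ∑ j ∈ Finset.range m, c j * tB' ^ j * tA' ^ (m - j) = 0 := by
        apply intIncl_injective
        rw [map_add, map_sum, map_zero, map_pow, ← hgAB, mul_pow]
        have h2 : intIncl tA' ^ m *
            (g ^ m + ∑ j ∈ Finset.range m, intIncl (c j) * g ^ j) = 0 := by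
          rw [hgrel, mul_zero]
        rw [mul_add, Finset.mul_sum, mul_comm] at h2
        rw [← h2]
        refine congrArg _ (Finset.sum_congr rfl fun j hj => ?_)
        rw [map_mul, map_mul, map_pow, map_pow, ← hgAB, mul_pow,
          ← Nat.add_sub_cancel' (Finset.mem_range.mp hj).le, pow_add, Nat.add_sub_cancel_left]
        ring
      have h3 := congrArg (algebraMap (PowerSeries ℤ) K) hz
      simp only [map_add, map_sum, map_mul, map_pow, map_zero, ← hy', mul_pow] at h3
      have hne : (algebraMap _ K tA') ^ m ≠ 0 :=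
        pow_ne_zero _ ((map_ne_zero_iff _ (IsFractionRing.injective _ K)).mpr htA0)
      simp only [Polynomial.eval₂_add, Polynomial.eval₂_X_pow, Polynomial.eval₂_finsetSum,
        Polynomial.eval₂_mul, Polynomial.eval₂_C]
      apply mul_left_cancel₀ hne
      rw [mul_zero, mul_add, Finset.mul_sum, mul_comm]
      refine Eq.trans (congrArg _ (Finset.sum_congr rfl fun j hj => ?_)) h3
      rw [← Nat.add_sub_cancel' (Finset.mem_range.mp hj).le, pow_add, Nat.add_sub_cancel_left]
      ring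
  obtain ⟨t, ht⟩ := IsIntegrallyClosed.isIntegral_iff.mp hint
  refine ⟨L, t, hL0, ?_⟩
  have : t * tA' = tB' := IsFractionRing.injective _ K (by rw [map_mul, ht, hy'])
  apply mul_right_cancel₀ ((map_ne_zero_iff _ intIncl_injective).mpr htA0)
  rw [← map_mul, this, ← hgAB, hg]

end

end FLTAgent.CuspForms
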