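import Fermat.Agent.CuspForms.Translates

/-!
# Conjugating the Fourier coefficients of cusp forms
-/

set_option autoImplicit false
set_option linter.style.haveILetI false
set_option linter.unusedSectionVars false

open UpperHalfPlane CongruenceSubgroup Filter
open scoped MatrixGroups ModularForm Manifold Topology

namespace FLTAgent.CuspForms

noncomputable section

/-! ### Roots of monic polynomials -/

theorem norm_root_bound {n : ℕ} {u : ℂ} {a : ℕ → ℂ}
    (h : u ^ n + ∑ j ∈ Finset.range n, a j * u ^ j = 0) :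
    ‖u‖ ≤ 1 + ∑ j ∈ Finset.range n, ‖a j‖ ∧
      ‖u‖ ^ n ≤ ∑ j ∈ Finset.range n, ‖a j‖ * ‖u‖ ^ j := by
  have h2 : ‖u‖ ^ n ≤ ∑ j ∈ Finset.range n, ‖a j‖ * ‖u‖ ^ j := by
    rw [← norm_pow, eq_neg_of_add_eq_zero_left h, norm_neg]
    refine (norm_sum_le _ _).trans (le_of_eq ?_)
    simp
  refine ⟨?_, h2⟩
  by_contra hlt
  push Not at hlt
  have hsum : 0 ≤ ∑ j ∈ Finset.range n, ‖a j‖ := Finset.sum_nonneg fun _ _ => norm_nonneg _
  have hu1 : 1 ≤ ‖u‖ := by linarith
  rcases Nat.eq_zero_or_pos n with rfl | hn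
  · simp at h
  have h3 : ∑ j ∈ Finset.range n, ‖a j‖ * ‖u‖ ^ j ≤
      (∑ j ∈ Finset.range n, ‖a j‖) * ‖u‖ ^ (n - 1) := by
    rw [Finset.sum_mul]
    refine Finset.sum_le_sum fun j hj => mul_le_mul_of_nonneg_left
      (pow_le_pow_right₀ hu1 ?_) (norm_nonneg _)
    have := Finset.mem_range.mp hj
    omega
  have h4 : ‖u‖ ^ n = ‖u‖ * ‖u‖ ^ (n - 1) := by
    rw [← pow_succ']; congr 1; omega
  have h5 : (∑ j ∈ Finset.range n, ‖a j‖) * ‖u‖ ^ (n - 1) < ‖u‖ * ‖u‖ ^ (n - 1) :=
    mul_lt_mul_of_pos_right (by linarith) (pow_pos (by linarith) _)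
  linarith

/-! ### Constant terms -/

variable {N : ℕ} {k : ℤ} {F : ℍ → ℂ}

theorem coeff_zero_of_isZero (hF : IsForm N k F) (h0 : IsZeroAtImInfty F) :
    PowerSeries.coeff 0 (qExpansion 1 F) = 0 := by
  rw [UpperHalfPlane.qExpansion_coeff_zero one_pos hF.analyticAt hF.periodic]
  exact h0.valueAtInfty_eq_zero

theorem isZero_of_coeff_zero (hF : IsForm 1 k F)
    (h0 : PowerSeries.coeff 0 (qExpansion 1 F) = 0) : IsZeroAtImInfty F := by
  have h := CuspFormClass.zero_at_infty
    (ModularForm.toCuspForm hF.toLevelOne (by rwa [IsForm.coe_toLevelOne]))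
  exact h

/-! ### A quotient of forms that is integral over level one is a cusp form -/

theorem exists_cuspidal_of_quot {w : ℤ} {n : ℕ} {Q E : ℍ → ℂ} (hn : 0 < n)
    (hQ : IsForm N (k + w) Q) (hE : IsForm N w E) (hE0 : E ≠ 0) (A : ℕ → ℍ → ℂ)
    (hA : ∀ j, j < n → IsForm 1 (((n - j : ℕ) : ℤ) * k) (A j))
    (hA0 : ∀ j, j < n → IsZeroAtImInfty (A j))
    (hrel : ∀ τ, Q τ ^ n + ∑ j ∈ Finset.range n, A j τ * Q τ ^ j * E τ ^ (n - j) = 0) :
    ∃ G : ℍ → ℂ, IsCuspidal N k G ∧ G * E = Q := by
  obtain ⟨τ₀, hτ₀⟩ := Function.ne_iff.mp hE0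
  let q : ℂ → ℂ := fun z => Q (ofComplex z) / E (ofComplex z)
  let G : ℍ → ℂ := fun τ => limUnder (𝓝[≠] (τ : ℂ)) q
  have hEd : ∀ z : ℂ, 0 < z.im → DifferentiableAt ℂ (E ∘ ofComplex) z := fun z hz =>
    (UpperHalfPlane.mdifferentiable_iff.mp hE.holo z hz).differentiableAt
      (isOpen_upperHalfPlaneSet.mem_nhds hz)
  have hQd : ∀ z : ℂ, 0 < z.im → DifferentiableAt ℂ (Q ∘ ofComplex) z := fun z hz =>
    (UpperHalfPlane.mdifferentiable_iff.mp hQ.holo z hz).differentiableAt
      (isOpen_upperHalfPlaneSet.mem_nhds hz)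
  have hqd : ∀ z : ℂ, 0 < z.im → E (ofComplex z) ≠ 0 → DifferentiableAt ℂ q z :=
    fun z hz hne => (hQd z hz).div (hEd z hz) hne
  have hbound : ∀ z : ℂ, E (ofComplex z) ≠ 0 →
      q z ^ n + ∑ j ∈ Finset.range n, A j (ofComplex z) * q z ^ j = 0 := by
    intro z hne
    have := hrel (ofComplex z)
    apply mul_left_cancel₀ (pow_ne_zero n hne)
    rw [mul_zero, mul_add, ← mul_pow, Finset.mul_sum]
    have hqE : E (ofComplex z) * q z = Q (ofComplex z) := mul_div_cancel₀ _ hne
    rw [hqE]
    refine Eq.trans (congrArg _ (Finset.sum_congr rfl fun j hj => ?_)) this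
    rw [← hqE, ← Nat.add_sub_cancel' (Finset.mem_range.mp hj).le, pow_add, Nat.add_sub_cancel_left,
      mul_pow]
    ring
  -- local description of `G`
  have hloc : ∀ τ : ℍ, DifferentiableAt ℂ (G ∘ ofComplex) (τ : ℂ) := by
    intro τ
    have hEan : AnalyticAt ℂ (E ∘ ofComplex) (τ : ℂ) :=
      (UpperHalfPlane.mdifferentiable_iff.mp hE.holo).analyticAt
        (isOpen_upperHalfPlaneSet.mem_nhds τ.im_pos)
    have hev : ∀ᶠ z in 𝓝[≠] (τ : ℂ), (E ∘ ofComplex) z ≠ 0 := by
      rcases hEan.eventually_eq_zero_or_eventually_ne_zero with h | h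
      · exfalso
        have hzero : Set.EqOn (E ∘ ofComplex) 0 upperHalfPlaneSet :=
          AnalyticOnNhd.eqOn_zero_of_preconnected_of_eventuallyEq_zero
            ((UpperHalfPlane.mdifferentiable_iff.mp hE.holo).analyticOnNhd
              isOpen_upperHalfPlaneSet)
            (convex_halfSpace_im_gt 0).isPreconnected τ.im_pos h
        have := hzero τ₀.im_pos
        simp only [Function.comp_apply, ofComplex_apply, Pi.zero_apply] at this
        exact hτ₀ this
      · exact h
    rw [eventually_nhdsWithin_iff, Metric.eventually_nhds_iff] at hev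
    obtain ⟨ε, hε, hev⟩ := hev
    obtain ⟨r, hr, hrH⟩ := Metric.isOpen_iff.mp isOpen_upperHalfPlaneSet (τ : ℂ) τ.im_pos
    set s := min ε r / 2 with hs_def
    have hs : 0 < s := by positivity
    have hsε : s < ε := by
      have := min_le_left ε r; rw [hs_def]; linarith
    have hsr : s < r := by
      have := min_le_right ε r; rw [hs_def]; linarith
    have hU : ∀ z ∈ Metric.closedBall (τ : ℂ) s, 0 < z.im := fun z hz =>
      hrH (lt_of_le_of_lt (Metric.mem_closedBall.mp hz) hsr)
    have hUne : ∀ z ∈ Metric.closedBall (τ : ℂ) s \ {(τ : ℂ)}, E (ofComplex z) ≠ 0 := fun z hz =>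
      hev (lt_of_le_of_lt (Metric.mem_closedBall.mp hz.1) hsε) hz.2
    have hd : DifferentiableOn ℂ q (Metric.ball (τ : ℂ) s \ {(τ : ℂ)}) := fun z hz =>
      (hqd z (hU z (Metric.ball_subset_closedBall hz.1))
        (hUne z ⟨Metric.ball_subset_closedBall hz.1, hz.2⟩)).differentiableWithinAt
    have hcont : ContinuousOn (fun z : ℂ => 1 + ∑ j ∈ Finset.range n, ‖A j (ofComplex z)‖)
        (Metric.closedBall (τ : ℂ) s) := by
      refine continuousOn_const.add (continuousOn_finsetSum _ fun j hj => ContinuousOn.norm ?_)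
      exact (UpperHalfPlane.mdifferentiable_iff.mp
        (hA j (Finset.mem_range.mp hj)).holo).continuousOn.mono hU
    obtain ⟨C, hC⟩ := ((isCompact_closedBall (τ : ℂ) s).image_of_continuousOn hcont).bddAbove
    have hb : BddAbove (norm ∘ q '' (Metric.ball (τ : ℂ) s \ {(τ : ℂ)})) := by
      refine ⟨C, ?_⟩
      rintro _ ⟨z, hz, rfl⟩
      exact ((norm_root_bound (hbound z (hUne z ⟨Metric.ball_subset_closedBall hz.1, hz.2⟩))).1).trans
        (hC ⟨z, Metric.ball_subset_closedBall hz.1, rfl⟩)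
    have hupd := Complex.differentiableOn_update_limUnder_of_bddAbove
      (Metric.ball_mem_nhds (τ : ℂ) hs) hd hb
    have heq : Set.EqOn (G ∘ ofComplex) (Function.update q (τ : ℂ) (limUnder (𝓝[≠] (τ : ℂ)) q))
        (Metric.ball (τ : ℂ) s) := by
      intro z hz
      have hzim := hU z (Metric.ball_subset_closedBall hz)
      simp only [Function.comp_apply, G, ofComplex_apply_of_im_pos hzim]
      rcases eq_or_ne z (τ : ℂ) with rfl | hne
      · simp
      · rw [Function.update_of_ne hne]
        exact Tendsto.limUnder_eq ((hqd z hzim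
          (hUne z ⟨Metric.ball_subset_closedBall hz, hne⟩)).continuousAt.tendsto.mono_left
            nhdsWithin_le_nhds)
    exact ((hupd.congr heq).differentiableAt (Metric.ball_mem_nhds _ hs))
  have hGhol : MDiff G := UpperHalfPlane.mdifferentiable_iff.mpr fun z hz =>
    (hloc ⟨z, hz⟩).differentiableWithinAt
  have hGne : ∀ τ : ℍ, E τ ≠ 0 → G τ * E τ = Q τ := by
    intro τ hτ
    have hτ' : E (ofComplex (τ : ℂ)) ≠ 0 := by rwa [ofComplex_apply]
    have : G τ = q τ := Tendsto.limUnder_eq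
      ((hqd τ τ.im_pos hτ').continuousAt.tendsto.mono_left nhdsWithin_le_nhds)
    rw [this]
    simp only [q, ofComplex_apply]
    exact div_mul_cancel₀ _ hτ
  have hGE : G * E = Q := by
    have hmd : MDiff (G * E - Q) := (hGhol.mul hE.holo).sub hQ.holo
    have : G * E - Q = 0 := by
      refine UpperHalfPlane.eq_zero_of_frequently hmd (τ := τ₀) (Filter.Eventually.frequently ?_)
      have hc : ∀ᶠ z in 𝓝 τ₀, E z ≠ 0 := hE.holo.continuous.continuousAt.eventually_ne hτ₀
      filter_upwards [nhdsWithin_le_nhds hc] with z hz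
      simp [hGne z hz]
    exact sub_eq_zero.mp this
  -- the polynomial relation
  have hroot : ∀ τ, G τ ^ n + ∑ j ∈ Finset.range n, A j τ * G τ ^ j = 0 := by
    let R : ℍ → ℂ := G ^ n + ∑ j ∈ Finset.range n, A j * G ^ j
    have hR : MDiff R := (hGhol.pow n).add (MDifferentiable.sum fun j hj =>
      (hA j (Finset.mem_range.mp hj)).holo.mul (hGhol.pow j))
    have h0 : E ^ n * R = 0 := by
      funext τ
      have h1 := hrel τ
      rw [← hGE] at h1
      simp only [Pi.mul_apply, R, Pi.add_apply, Pi.pow_apply, Finset.sum_apply, Pi.zero_apply]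
      rw [mul_add, ← mul_pow, mul_comm (E τ), Finset.mul_sum]
      refine Eq.trans (congrArg _ (Finset.sum_congr rfl fun j hj => ?_)) h1
      simp only [Pi.mul_apply]
      rw [mul_pow, ← Nat.add_sub_cancel' (Finset.mem_range.mp hj).le, pow_add,
        Nat.add_sub_cancel_left]
      ring
    rcases (UpperHalfPlane.mul_eq_zero_iff (hE.holo.pow n) hR).mp h0 with h | h
    · have := congrFun h τ₀
      simp only [Pi.pow_apply, Pi.zero_apply] at this
      exact absurd this (pow_ne_zero _ hτ₀)
    · intro τ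
      have := congrFun h τ
      simpa [R, Finset.sum_apply] using this
  refine ⟨G, ?_, hGE⟩
  have hcusp : ∀ γ : SL(2, ℤ), ∀ τ, (G ∣[k] γ) τ ^ n +
      ∑ j ∈ Finset.range n, A j τ * (G ∣[k] γ) τ ^ j = 0 := by
    intro γ τ
    have hden := denom_ne_zero γ τ
    have hG : G (γ • τ) = (G ∣[k] γ) τ * denom γ τ ^ k := by
      rw [ModularForm.SL_slash_apply, mul_assoc, ← zpow_add₀ hden]
      simp
    have := hroot (γ • τ)
    rw [hG] at this
    apply mul_left_cancel₀ (pow_ne_zero n (zpow_ne_zero k hden))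
    rw [mul_zero, mul_add, ← mul_pow, mul_comm (denom γ τ ^ k), Finset.mul_sum]
    refine Eq.trans (congrArg _ (Finset.sum_congr rfl fun j hj => ?_)) this
    have hj' := Finset.mem_range.mp hj
    have hAj := congrFun ((hA j hj').slash γ (by rw [gamma0_one_eq_top]; trivial)) τ
    rw [ModularForm.SL_slash_apply] at hAj
    have hpow : denom γ τ ^ (((n - j : ℕ) : ℤ) * k) = (denom γ τ ^ k) ^ (n - j) := by
      rw [← zpow_natCast, ← zpow_mul, mul_comm]
    rw [← hAj, mul_pow, ← Nat.add_sub_cancel' hj'.le, pow_add, Nat.add_sub_cancel_left, zpow_neg,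
      hpow]
    field_simp
  have hzero : ∀ γ : SL(2, ℤ), IsZeroAtImInfty (G ∣[k] γ) := by
    intro γ
    rw [IsZeroAtImInfty, ZeroAtFilter, Metric.tendsto_nhds]
    intro ε hε
    have ht : Tendsto (fun τ => ∑ j ∈ Finset.range n, ‖A j τ‖) atImInfty (𝓝 0) := by
      have h := tendsto_finsetSum (Finset.range n) fun j hj =>
        (hA0 j (Finset.mem_range.mp hj)).norm
      simpa using h
    have ht2 : Tendsto (fun τ => ∑ j ∈ Finset.range n, ‖A j τ‖ * 2 ^ j) atImInfty (𝓝 0) := by
      have h := tendsto_finsetSum (Finset.range n) fun j hj =>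
        ((hA0 j (Finset.mem_range.mp hj)).norm).mul_const ((2 : ℝ) ^ j)
      simpa using h
    filter_upwards [ht.eventually (gt_mem_nhds one_pos),
      ht2.eventually (gt_mem_nhds (pow_pos hε n))] with τ h1 h2
    obtain ⟨hb1, hb2⟩ := norm_root_bound (hcusp γ τ)
    rw [dist_zero_right]
    by_contra hge
    push Not at hge
    have h3 : ε ^ n ≤ ‖(G ∣[k] γ) τ‖ ^ n := pow_le_pow_left₀ hε.le hge n
    have h4 : ∑ j ∈ Finset.range n, ‖A j τ‖ * ‖(G ∣[k] γ) τ‖ ^ j ≤
        ∑ j ∈ Finset.range n, ‖A j τ‖ * 2 ^ j :=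
      Finset.sum_le_sum fun j _ => mul_le_mul_of_nonneg_left
        (pow_le_pow_left₀ (norm_nonneg _) (by linarith) j) (norm_nonneg _)
    linarith
  refine ⟨⟨hGhol, fun γ hγ => ?_, fun γ => (hzero γ).isBoundedAtImInfty⟩, hzero⟩
  have h1 := hQ.slash γ hγ
  rw [← hGE, ModularForm.mul_slash_SL2, hE.slash γ hγ] at h1
  have h2 : (G ∣[k] γ - G) * E = 0 := by rw [sub_mul, h1, sub_self]
  rcases (UpperHalfPlane.mul_eq_zero_iff ((hGhol.slash k _).sub hGhol) hE.holo).mp h2 with h | h
  · exact sub_eq_zero.mp h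
  · exact absurd h hE0

/-! ### Conjugate pairs -/

/-- `G` is a form whose expansion is the `σ`-conjugate of that of `F`. -/
structure ConjPair (σ : ℂ →+* ℂ) (N : ℕ) (k : ℤ) (F G : ℍ → ℂ) : Prop where
  left : IsForm N k F
  right : IsForm N k G
  eq : qExpansion 1 G = PowerSeries.map σ (qExpansion 1 F)

namespace ConjPair

variable {σ : ℂ →+* ℂ} {l : ℤ} {F G F' G' : ℍ → ℂ}

theorem mul (h : ConjPair σ N k F G) (h' : ConjPair σ N l F' G') :
    ConjPair σ N (k + l) (F * F') (G * G') :=
  ⟨h.left.mul h'.left, h.right.mul h'.right, by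
    rw [h.right.qExpansion_mul h'.right, h.left.qExpansion_mul h'.left, map_mul, h.eq, h'.eq]⟩

theorem congr_weight {m : ℤ} (h : ConjPair σ N k F G) (e : k = m) : ConjPair σ N m F G := e ▸ h

theorem pow (h : ConjPair σ N k F G) (m : ℕ) : ConjPair σ N (m * k) (F ^ m) (G ^ m) :=
  ⟨h.left.pow m, h.right.pow m, by
    rw [h.right.qExpansion_pow, h.left.qExpansion_pow, map_pow, h.eq]⟩

theorem sum {ι : Type*} (s : Finset ι) {F G : ι → ℍ → ℂ}
    (h : ∀ i ∈ s, ConjPair σ N k (F i) (G i)) : ConjPair σ N k (∑ i ∈ s, F i) (∑ i ∈ s, G i) :=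
  ⟨IsForm.sum s fun i hi => (h i hi).left, IsForm.sum s fun i hi => (h i hi).right, by
    rw [IsForm.qExpansion_sum s fun i hi => (h i hi).right,
      IsForm.qExpansion_sum s fun i hi => (h i hi).left, map_sum]
    exact Finset.sum_congr rfl fun i hi => (h i hi).eq⟩

theorem natCast_smul (h : ConjPair σ N k F G) (m : ℕ) :
    ConjPair σ N k ((m : ℂ) • F) ((m : ℂ) • G) :=
  ⟨h.left.smul _, h.right.smul _, by
    rw [h.right.qExpansion_smul, h.left.qExpansion_smul, h.eq]
    ext n
    simp [PowerSeries.coeff_map]⟩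

end ConjPair

theorem exists_conjPair_levelOne (σ : ℂ →+* ℂ) {N : ℕ} {k : ℤ} {F : ℍ → ℂ} (hF : IsForm 1 k F) :
    ∃ G, IsForm 1 k G ∧ ConjPair σ N k F G := by
  obtain ⟨G, hG, heq⟩ := levelOne_exists_conj hF σ
  exact ⟨G, hG, hF.mono (one_dvd N), hG.mono (one_dvd N), heq⟩

/-! ### The data attached to a cusp form -/

variable [NeZero N]

variable (N) in
/-- The number of cosets. -/
def nCos : ℕ := Fintype.card (Coset N)

theorem nCos_pos : 0 < nCos N := Fintype.card_pos_iff.mpr ⟨((1 : SL(2, ℤ)) : Coset N)⟩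

variable (N) in
/-- The derivative of the separator's polynomial at the separator. -/
def derivForm : ℍ → ℂ :=
  ∑ m ∈ Finset.range (nCos N), ((m + 1 : ℕ) : ℂ) • ((isForm_sep N).coeffForm (m + 1) * sep N ^ m)

/-- The numerator. -/
def numForm (hF : IsForm N k F) : ℍ → ℂ :=
  ∑ m ∈ Finset.range (nCos N), ∑ r ∈ Finset.range (m + 1),
    (isForm_sep N).coeffForm (m + 1) * (sep N ^ (m - r) * hF.mixedSum (isForm_sep N) r)

theorem derivForm_eq_prod (τ : ℍ) :
    derivForm N τ = (letI := Classical.decEq (Coset N);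
      ∏ q ∈ (Finset.univ : Finset (Coset N)).erase ((1 : SL(2, ℤ)) : Coset N),
        (sep N τ - (isForm_sep N).translate q τ)) := by
  letI := Classical.decEq (Coset N)
  have h := derivative_relation (fun q => (isForm_sep N).translate q τ)
    ((1 : SL(2, ℤ)) : Coset N)
  rw [Finset.sum_range_succ', IsForm.translate_one] at h
  simp only [Nat.cast_zero, zero_mul, add_zero, Nat.add_sub_cancel] at h
  rw [← h]
  simp [derivForm, nCos, Finset.sum_apply, IsForm.coeffForm, mul_assoc]

theorem derivForm_ne_zero : derivForm N ≠ 0 := by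
  letI := Classical.decEq (Coset N)
  intro h
  have h' : ∏ q ∈ (Finset.univ : Finset (Coset N)).erase ((1 : SL(2, ℤ)) : Coset N),
      (sep N - (isForm_sep N).translate q) = 0 := by
    funext τ
    have := congrFun h τ
    rw [derivForm_eq_prod] at this
    simpa [Finset.prod_apply] using this
  rw [UpperHalfPlane.prod_eq_zero_iff] at h'
  · obtain ⟨q, hq, hq0⟩ := h'
    exact sep_translate_ne (Finset.ne_of_mem_erase hq) (sub_eq_zero.mp hq0).symm
  · exact fun q _ => (isForm_sep N).holo.sub ((isForm_sep N).translate_holo q)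

theorem mul_derivForm (hF : IsForm N k F) : F * derivForm N = numForm hF := by
  funext τ
  letI := Classical.decEq (Coset N)
  have h := interpolation_relation (fun q => (isForm_sep N).translate q τ)
    (fun q => hF.translate q τ) ((1 : SL(2, ℤ)) : Coset N)
  simp only [Finset.sum_range_succ' (fun m => ∑ r ∈ Finset.range m, _), Finset.range_zero,
    Finset.sum_empty, add_zero, IsForm.translate_one, Nat.add_sub_cancel] at h
  rw [Finset.sum_range_succ'] at h
  simp only [Nat.cast_zero, zero_mul, add_zero, Nat.add_sub_cancel] at h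
  calc (F * derivForm N) τ = F τ * ∑ m ∈ Finset.range (Fintype.card (Coset N)),
        ((m + 1 : ℕ) : ℂ) * symCoeff (fun q => (isForm_sep N).translate q τ) (m + 1) *
          sep N τ ^ m := by
        simp [derivForm, nCos, Finset.sum_apply, IsForm.coeffForm, mul_assoc]
    _ = _ := h.symm
    _ = numForm hF τ := by
        simp [numForm, nCos, Finset.sum_apply, IsForm.coeffForm, IsForm.mixedSum, mul_assoc]

theorem self_relation (hF : IsForm N k F) :
    F ^ nCos N + ∑ j ∈ Finset.range (nCos N), hF.coeffForm j * F ^ j = 0 := by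
  funext τ
  have h := root_relation (fun q => hF.translate q τ) ((1 : SL(2, ℤ)) : Coset N)
  rw [Finset.sum_range_succ, symCoeff_card, one_mul, IsForm.translate_one, add_comm] at h
  simpa [nCos, Finset.sum_apply, IsForm.coeffForm] using h

theorem coeffForm_isZero (hF : IsCuspidal N k F) {j : ℕ} (hj : j < nCos N) :
    IsZeroAtImInfty (hF.toIsForm.coeffForm j) := by
  classical
  have : hF.toIsForm.coeffForm j = ∑ t ∈ (Finset.univ : Finset (Coset N)).powersetCard j,
      ∏ q ∈ tᶜ, -(hF.toIsForm.translate q) := by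
    funext τ
    rw [IsForm.coeffForm, symCoeff_eq]
    simp [Finset.sum_apply, Finset.prod_apply]
  rw [this]
  refine Finset.sum_induction _ IsZeroAtImInfty (fun _ _ ha hb => ha.add hb)
    (Filter.zero_zeroAtFilter _) fun t ht => ?_
  have hne : tᶜ.Nonempty := by
    rw [← Finset.card_pos, Finset.card_compl, (Finset.mem_powersetCard.mp ht).2]
    exact Nat.sub_pos_of_lt hj
  obtain ⟨q₀, hq₀⟩ := hne
  rw [← Finset.mul_prod_erase _ _ hq₀]
  have hb : IsBoundedAtImInfty (∏ q ∈ tᶜ.erase q₀, -(hF.toIsForm.translate q)) :=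
    Finset.prod_induction _ IsBoundedAtImInfty (fun _ _ ha hb => ha.mul hb)
      (Filter.const_boundedAtFilter _ (1 : ℂ)) fun q _ => (hF.toIsForm.translate_bdd q).neg
  have hz : IsZeroAtImInfty (-(hF.toIsForm.translate q₀)) := by
    have := (IsForm.translate_zero hF q₀).neg
    simpa [IsZeroAtImInfty, ZeroAtFilter] using this
  exact (Asymptotics.isLittleO_one_iff ℝ).mp
    ((((Asymptotics.isLittleO_one_iff ℝ).mpr hz).mul_isBigO hb).congr
      (fun x => by simp) (fun x => by simp))

theorem qExpansion_derivForm_mem : qExpansion 1 (derivForm N) ∈ intSpan := by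
  obtain ⟨u, hu⟩ := qExpansion_sep_int N
  have hterm : ∀ m ∈ Finset.range (nCos N), IsForm N (((nCos N - 1 : ℕ) : ℤ) * 12)
      (((m + 1 : ℕ) : ℂ) • ((isForm_sep N).coeffForm (m + 1) * sep N ^ m)) := fun m hm =>
    ((((isForm_sep N).isForm_coeffForm (m + 1)).mono (one_dvd N)).mul
      ((isForm_sep N).pow m)).congr_weight (by
        have := Finset.mem_range.mp hm
        rw [show Fintype.card (Coset N) = nCos N from rfl]
        push_cast [Nat.cast_sub (show m + 1 ≤ nCos N by omega), Nat.cast_sub (nCos_pos (N := N))]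
        ring) |>.smul _
  rw [derivForm, IsForm.qExpansion_sum _ hterm]
  refine Subalgebra.sum_mem _ fun m _ => ?_
  have h1 := ((isForm_sep N).isForm_coeffForm (m + 1)).mono (one_dvd N)
  rw [((h1.mul ((isForm_sep N).pow m))).qExpansion_smul, h1.qExpansion_mul ((isForm_sep N).pow m),
    (isForm_sep N).qExpansion_pow, ← hu]
  exact intSpan.smul_mem (mul_mem (levelOne_qExpansion_intSpan ((isForm_sep N).isForm_coeffForm _))
    (pow_mem (intIncl_mem_intSpan u) m)) _

theorem numTerm_isForm (hF : IsForm N k F) {m r : ℕ} (hm : m < nCos N) (hr : r < m + 1) :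
    IsForm N (k + ((nCos N - 1 : ℕ) : ℤ) * 12)
      ((isForm_sep N).coeffForm (m + 1) * (sep N ^ (m - r) * hF.mixedSum (isForm_sep N) r)) :=
  ((((isForm_sep N).isForm_coeffForm (m + 1)).mono (one_dvd N)).mul
    (((isForm_sep N).pow (m - r)).mul
      ((hF.isForm_mixedSum (isForm_sep N) r).mono (one_dvd N)))).congr_weight (by
    rw [show Fintype.card (Coset N) = nCos N from rfl]
    push_cast [Nat.cast_sub (show m + 1 ≤ nCos N by omega), Nat.cast_sub (nCos_pos (N := N)),
      Nat.cast_sub (show r ≤ m by omega)]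
    ring)

theorem qExpansion_numForm_mem (hF : IsForm N k F) : qExpansion 1 (numForm hF) ∈ intSpan := by
  obtain ⟨u, hu⟩ := qExpansion_sep_int N
  rw [numForm, IsForm.qExpansion_sum (k := k + ((nCos N - 1 : ℕ) : ℤ) * 12) _ fun m hm =>
    IsForm.sum _ fun r hr =>
      numTerm_isForm hF (Finset.mem_range.mp hm) (Finset.mem_range.mp hr)]
  refine Subalgebra.sum_mem _ fun m hm => ?_
  rw [IsForm.qExpansion_sum _ fun r hr =>
    numTerm_isForm hF (Finset.mem_range.mp hm) (Finset.mem_range.mp hr)]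
  refine Subalgebra.sum_mem _ fun r _ => ?_
  have h1 := ((isForm_sep N).isForm_coeffForm (m + 1)).mono (one_dvd N)
  have h2 := (hF.isForm_mixedSum (isForm_sep N) r).mono (one_dvd N)
  rw [h1.qExpansion_mul (((isForm_sep N).pow (m - r)).mul h2),
    ((isForm_sep N).pow (m - r)).qExpansion_mul h2, (isForm_sep N).qExpansion_pow, ← hu]
  exact mul_mem (levelOne_qExpansion_intSpan ((isForm_sep N).isForm_coeffForm _))
    (mul_mem (pow_mem (intIncl_mem_intSpan u) _)
      (levelOne_qExpansion_intSpan (hF.isForm_mixedSum (isForm_sep N) r)))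

theorem derivForm_isForm : IsForm N (((nCos N - 1 : ℕ) : ℤ) * 12) (derivForm N) :=
  IsForm.sum _ fun m hm =>
    ((((isForm_sep N).isForm_coeffForm (m + 1)).mono (one_dvd N)).mul
      ((isForm_sep N).pow m)).congr_weight (by
        have := Finset.mem_range.mp hm
        rw [show Fintype.card (Coset N) = nCos N from rfl]
        push_cast [Nat.cast_sub (show m + 1 ≤ nCos N by omega), Nat.cast_sub (nCos_pos (N := N))]
        ring) |>.smul _

/-- The expansion of a cusp form is a ratio in the integral span, integral over it. -/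
theorem cuspidal_series_data (hF : IsCuspidal N k F) :
    ∃ (A B : PowerSeries ℂ) (m : ℕ) (a : ℕ → PowerSeries ℂ), A ∈ intSpan ∧ A ≠ 0 ∧ B ∈ intSpan ∧
      qExpansion 1 F * A = B ∧ (∀ j, j < m → a j ∈ intSpan) ∧
      qExpansion 1 F ^ m + ∑ j ∈ Finset.range m, a j * qExpansion 1 F ^ j = 0 := by
  refine ⟨qExpansion 1 (derivForm N), qExpansion 1 (numForm hF.toIsForm), nCos N,
    fun j => qExpansion 1 (hF.toIsForm.coeffForm j), qExpansion_derivForm_mem,
    fun h => derivForm_ne_zero (derivForm_isForm.eq_zero_of_qExpansion h),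
    qExpansion_numForm_mem _, ?_, fun j _ => levelOne_qExpansion_intSpan
      (hF.toIsForm.isForm_coeffForm j), ?_⟩
  · rw [← hF.toIsForm.qExpansion_mul derivForm_isForm, mul_derivForm]
  · have h := congrArg (qExpansion 1) (self_relation hF.toIsForm)
    have hterm : ∀ j ∈ Finset.range (nCos N), IsForm N ((nCos N : ℤ) * k)
        (hF.toIsForm.coeffForm j * F ^ j) := fun j hj =>
      (((hF.toIsForm.isForm_coeffForm j).mono (one_dvd N)).mul (hF.toIsForm.pow j)).congr_weight (by
        rw [show Fintype.card (Coset N) = nCos N from rfl]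
        push_cast [Nat.cast_sub (Finset.mem_range.mp hj).le]
        ring)
    rw [(hF.toIsForm.pow (nCos N)).qExpansion_add (IsForm.sum _ hterm),
      IsForm.qExpansion_sum _ hterm, UpperHalfPlane.qExpansion_zero,
      hF.toIsForm.qExpansion_pow] at h
    rw [← h]
    refine congrArg _ (Finset.sum_congr rfl fun j _ => ?_)
    rw [((hF.toIsForm.isForm_coeffForm j).mono (one_dvd N)).qExpansion_mul (hF.toIsForm.pow j),
      hF.toIsForm.qExpansion_pow]

/-- **Galois stability.** Conjugating the coefficients of a cusp form gives a cusp form. -/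
theorem exists_conj_cuspidal (hF : IsCuspidal N k F) (σ : ℂ →+* ℂ) :
    ∃ G, IsCuspidal N k G ∧ qExpansion 1 G = PowerSeries.map σ (qExpansion 1 F) := by
  have hsep : ConjPair σ N 12 (sep N) (sep N) := by
    obtain ⟨u, hu⟩ := qExpansion_sep_int N
    refine ⟨isForm_sep N, isForm_sep N, ?_⟩
    rw [← hu]
    ext n
    simp [PowerSeries.coeff_map]
  choose P' hP' hPp using fun m =>
    exists_conjPair_levelOne (N := N) σ ((isForm_sep N).isForm_coeffForm m)
  choose W' hW' hWp using fun r =>
    exists_conjPair_levelOne (N := N) σ (hF.toIsForm.isForm_mixedSum (isForm_sep N) r)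
  choose A' hA' hAp using fun j =>
    exists_conjPair_levelOne (N := N) σ (hF.toIsForm.isForm_coeffForm j)
  set E' : ℍ → ℂ := ∑ m ∈ Finset.range (nCos N), ((m + 1 : ℕ) : ℂ) • (P' (m + 1) * sep N ^ m)
  set Q' : ℍ → ℂ := ∑ m ∈ Finset.range (nCos N), ∑ r ∈ Finset.range (m + 1),
    P' (m + 1) * (sep N ^ (m - r) * W' r)
  have hE : ConjPair σ N (((nCos N - 1 : ℕ) : ℤ) * 12) (derivForm N) E' :=
    ConjPair.sum _ fun m hm => (((hPp (m + 1)).mul (hsep.pow m)).congr_weight (by
      have := Finset.mem_range.mp hm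
      rw [show Fintype.card (Coset N) = nCos N from rfl]
      push_cast [Nat.cast_sub (show m + 1 ≤ nCos N by omega), Nat.cast_sub (nCos_pos (N := N))]
      ring)).natCast_smul _
  have hQ : ConjPair σ N (k + ((nCos N - 1 : ℕ) : ℤ) * 12) (numForm hF.toIsForm) Q' :=
    ConjPair.sum _ fun m hm => ConjPair.sum _ fun r hr =>
      (((hPp (m + 1)).mul ((hsep.pow (m - r)).mul (hWp r)))).congr_weight (by
        have h1 := Finset.mem_range.mp hm
        have h2 := Finset.mem_range.mp hr
        rw [show Fintype.card (Coset N) = nCos N from rfl]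
        push_cast [Nat.cast_sub (show m + 1 ≤ nCos N by omega), Nat.cast_sub (nCos_pos (N := N)),
          Nat.cast_sub (show r ≤ m by omega)]
        ring)
  have hE0 : E' ≠ 0 := by
    intro h
    apply derivForm_ne_zero (N := N)
    refine hE.left.eq_zero_of_qExpansion (PowerSeries.map_injective σ σ.injective ?_)
    rw [← hE.eq, h, UpperHalfPlane.qExpansion_zero, map_zero]
  -- the transported relation
  have hrel : Q' ^ nCos N +
      ∑ j ∈ Finset.range (nCos N), A' j * Q' ^ j * E' ^ (nCos N - j) = 0 := by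
    have hterm : ∀ j ∈ Finset.range (nCos N),
        ConjPair σ N ((nCos N : ℤ) * (k + ((nCos N - 1 : ℕ) : ℤ) * 12))
          (hF.toIsForm.coeffForm j * numForm hF.toIsForm ^ j * derivForm N ^ (nCos N - j))
          (A' j * Q' ^ j * E' ^ (nCos N - j)) := fun j hj =>
      (((hAp j).mul (hQ.pow j)).mul (hE.pow (nCos N - j))).congr_weight (by
        rw [show Fintype.card (Coset N) = nCos N from rfl]
        push_cast [Nat.cast_sub (Finset.mem_range.mp hj).le]
        ring)
    have hsum := ConjPair.sum _ hterm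
    have hpow := hQ.pow (nCos N)
    refine (hpow.right.add hsum.right).eq_zero_of_qExpansion ?_
    rw [hpow.right.qExpansion_add hsum.right, hpow.eq, hsum.eq, ← map_add,
      ← hpow.left.qExpansion_add hsum.left]
    have h0 : numForm hF.toIsForm ^ nCos N + ∑ j ∈ Finset.range (nCos N),
        hF.toIsForm.coeffForm j * numForm hF.toIsForm ^ j * derivForm N ^ (nCos N - j) = 0 := by
      have h := congrArg (fun x => derivForm N ^ nCos N * x) (self_relation hF.toIsForm)
      simp only [mul_zero] at h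
      rw [← h, ← mul_derivForm, mul_add, ← mul_pow, mul_comm F, Finset.mul_sum]
      refine congrArg _ (Finset.sum_congr rfl fun j hj => ?_)
      rw [mul_pow, ← Nat.add_sub_cancel' (Finset.mem_range.mp hj).le, pow_add,
        Nat.add_sub_cancel_left]
      ring
    rw [h0, UpperHalfPlane.qExpansion_zero, map_zero]
  obtain ⟨G, hG, hGE⟩ := exists_cuspidal_of_quot (N := N) nCos_pos hQ.right hE.right hE0 A'
    (fun j _ => (hA' j)) (fun j hj => isZero_of_coeff_zero (hA' j) (by
      rw [(hAp j).eq, PowerSeries.coeff_map,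
        coeff_zero_of_isZero (hF.toIsForm.isForm_coeffForm j) (coeffForm_isZero hF hj), map_zero]))
    (fun τ => by simpa [Finset.sum_apply] using congrFun hrel τ)
  refine ⟨G, hG, ?_⟩
  have h1 := hG.toIsForm.qExpansion_mul hE.right
  rw [hGE, hQ.eq, hE.eq, ← mul_derivForm, hF.toIsForm.qExpansion_mul hE.left, map_mul] at h1
  refine (mul_right_cancel₀ ?_ h1).symm
  rw [← hE.eq]
  exact fun h => hE0 (hE.right.eq_zero_of_qExpansion h)

end

end FLTAgent.CuspForms
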