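import Mathlib
import Fermat.Prelude.Def_FLTPrelim_Modularity
import Fermat.Prelude.Thm_CongruenceSubgroup_one_mem_strictPeriods_Gamma0

/-!
# Modular forms on `Γ₀(N)` as a predicate on functions

This avoids weight casts when forming polynomial combinations.
-/

set_option autoImplicit false
set_option linter.style.haveILetI false

open UpperHalfPlane CongruenceSubgroup
open scoped MatrixGroups ModularForm Manifold

namespace FLTAgent.CuspForms

noncomputable section

/-- `F` is a modular form of weight `k` on `Γ₀(N)`. -/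
structure IsForm (N : ℕ) (k : ℤ) (F : ℍ → ℂ) : Prop where
  holo : MDiff F
  slash : ∀ γ ∈ Gamma0 N, F ∣[k] γ = F
  bdd : ∀ γ : SL(2, ℤ), IsBoundedAtImInfty (F ∣[k] γ)

/-- `F` is a cusp form of weight `k` on `Γ₀(N)`. -/
structure IsCuspidal (N : ℕ) (k : ℤ) (F : ℍ → ℂ) : Prop extends IsForm N k F where
  zero : ∀ γ : SL(2, ℤ), IsZeroAtImInfty (F ∣[k] γ)

variable {N : ℕ} {k l : ℤ} {F G : ℍ → ℂ}

theorem isForm_of_modularForm [NeZero N] (f : ModularForm (Gamma0 N) k) : IsForm N k f where
  holo := ModularFormClass.holo f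
  slash γ hγ := SlashInvariantFormClass.slash_action_eq f _ ⟨γ, hγ, rfl⟩
  bdd γ := ModularFormClass.bdd_at_infty_slash f γ

theorem isCuspidal_of_cuspForm [NeZero N] (f : CuspForm (Gamma0 N) k) : IsCuspidal N k f where
  holo := ModularFormClass.holo f
  slash γ hγ := SlashInvariantFormClass.slash_action_eq f _ ⟨γ, hγ, rfl⟩
  bdd γ := ModularFormClass.bdd_at_infty_slash f γ
  zero γ := CuspFormClass.zero_at_infty_slash f γ

theorem gamma0_one_eq_top : Gamma0 1 = ⊤ := by
  ext x
  simp [Gamma0_mem, Subsingleton.elim _ (0 : ZMod 1)]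

theorem isForm_one_of_levelOne (f : ModularForm 𝒮ℒ k) : IsForm 1 k f where
  holo := ModularFormClass.holo f
  slash γ _ := SlashInvariantFormClass.slash_action_eq f _ ⟨γ, rfl⟩
  bdd γ := by
    rw [show (⇑f ∣[k] γ) = ⇑f from SlashInvariantFormClass.slash_action_eq f _ ⟨γ, rfl⟩]
    exact ModularFormClass.bdd_at_infty f

namespace IsForm

/-- Package as a `ModularForm`. -/
def toModularForm [NeZero N] (h : IsForm N k F) : ModularForm (Gamma0 N) k where
  toFun := F
  slash_action_eq' := by
    rintro _ ⟨γ, hγ, rfl⟩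
    exact h.slash γ hγ
  holo' := h.holo
  bdd_at_cusps' hc := by
    rw [Subgroup.IsArithmetic.isCusp_iff_isCusp_SL2Z] at hc
    rw [OnePoint.isBoundedAt_iff_forall_SL2Z hc]
    exact fun γ _ => h.bdd γ

@[simp] theorem coe_toModularForm [NeZero N] (h : IsForm N k F) : ⇑h.toModularForm = F := rfl

theorem periodic (h : IsForm N k F) : Function.Periodic (F ∘ UpperHalfPlane.ofComplex) 1 := by
  have hT : ModularGroup.T ∈ Gamma0 N := by simp [Gamma0_mem, ModularGroup.coe_T]
  intro z
  by_cases hz : 0 < z.im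
  · have hz1 : 0 < (z + 1).im := by simpa using hz
    have := congrFun (h.slash _ hT) (UpperHalfPlane.ofComplex z)
    rw [ModularForm.SL_slash_apply] at this
    have hsm : ModularGroup.T • UpperHalfPlane.ofComplex z = UpperHalfPlane.ofComplex (z + 1) := by
      rw [UpperHalfPlane.modular_T_smul]
      ext
      simp [UpperHalfPlane.ofComplex_apply_of_im_pos hz, UpperHalfPlane.ofComplex_apply_of_im_pos hz1,
        add_comm]
    have hd : UpperHalfPlane.denom ModularGroup.T (UpperHalfPlane.ofComplex z) = 1 := by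
      simp [UpperHalfPlane.denom, ModularGroup.coe_T]
    rw [hsm, hd] at this
    simpa using this
  · simp only [Function.comp_apply]
    have hz1 : (z + 1).im ≤ 0 := by
      rw [Complex.add_im, Complex.one_im, add_zero]
      exact not_lt.mp hz
    rw [UpperHalfPlane.ofComplex_apply_of_im_nonpos hz1,
      UpperHalfPlane.ofComplex_apply_of_im_nonpos (not_lt.mp hz)]

theorem bdd_infty (h : IsForm N k F) : IsBoundedAtImInfty F := by
  simpa using h.bdd 1

theorem analyticAt (h : IsForm N k F) : AnalyticAt ℂ (cuspFunction 1 F) 0 :=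
  UpperHalfPlane.analyticAt_cuspFunction_zero one_pos h.periodic h.holo h.bdd_infty

theorem mono {M : ℕ} (h : IsForm M k F) (hMN : M ∣ N) : IsForm N k F where
  holo := h.holo
  slash γ hγ := h.slash γ (by
    rw [Gamma0_mem, ZMod.intCast_zmod_eq_zero_iff_dvd] at hγ ⊢
    exact (Int.natCast_dvd_natCast.mpr hMN).trans hγ)
  bdd := h.bdd

theorem const (c : ℂ) : IsForm N 0 (fun _ => c) where
  holo := mdifferentiable_const
  slash γ _ := by
    funext τ
    simp [ModularForm.SL_slash_apply]
  bdd γ := by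
    have : ((fun _ => c) ∣[(0 : ℤ)] γ : ℍ → ℂ) = fun _ => c := by
      funext τ
      simp [ModularForm.SL_slash_apply]
    rw [this]
    exact Filter.const_boundedAtFilter _ c

theorem zero : IsForm N k (0 : ℍ → ℂ) where
  holo := mdifferentiable_const
  slash γ _ := SlashAction.zero_slash k γ
  bdd γ := by
    rw [SlashAction.zero_slash]
    exact Filter.const_boundedAtFilter _ (0 : ℂ)

theorem add (hF : IsForm N k F) (hG : IsForm N k G) : IsForm N k (F + G) where
  holo := hF.holo.add hG.holo
  slash γ hγ := by rw [SlashAction.add_slash, hF.slash γ hγ, hG.slash γ hγ]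
  bdd γ := by
    rw [SlashAction.add_slash]
    exact (hF.bdd γ).add (hG.bdd γ)

theorem smul (c : ℂ) (hF : IsForm N k F) : IsForm N k (c • F) where
  holo := hF.holo.const_smul c
  slash γ hγ := by rw [ModularForm.SL_smul_slash, hF.slash γ hγ]
  bdd γ := by
    rw [ModularForm.SL_smul_slash]
    exact (hF.bdd γ).smul c

theorem mul (hF : IsForm N k F) (hG : IsForm N l G) : IsForm N (k + l) (F * G) where
  holo := hF.holo.mul hG.holo
  slash γ hγ := by rw [ModularForm.mul_slash_SL2, hF.slash γ hγ, hG.slash γ hγ]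
  bdd γ := by
    rw [ModularForm.mul_slash_SL2]
    exact (hF.bdd γ).mul (hG.bdd γ)

theorem congr_weight {m : ℤ} (hF : IsForm N k F) (h : k = m) : IsForm N m F := h ▸ hF

theorem pow (hF : IsForm N k F) : ∀ m : ℕ, IsForm N (m * k) (F ^ m)
  | 0 => by
    rw [pow_zero]
    exact (IsForm.const 1).congr_weight (by simp)
  | m + 1 => by
    rw [pow_succ]
    exact ((hF.pow m).mul hF).congr_weight (by push_cast; ring)

theorem sum {ι : Type*} (s : Finset ι) {f : ι → ℍ → ℂ} (hf : ∀ i ∈ s, IsForm N k (f i)) :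
    IsForm N k (∑ i ∈ s, f i) :=
  Finset.sum_induction _ (IsForm N k) (fun _ _ ha hb => ha.add hb) IsForm.zero hf

theorem qExpansion_mul (hF : IsForm N k F) (hG : IsForm N l G) :
    qExpansion 1 (F * G) = qExpansion 1 F * qExpansion 1 G :=
  UpperHalfPlane.qExpansion_mul hF.analyticAt hG.analyticAt

theorem qExpansion_add (hF : IsForm N k F) (hG : IsForm N l G) :
    qExpansion 1 (F + G) = qExpansion 1 F + qExpansion 1 G :=
  UpperHalfPlane.qExpansion_add hF.analyticAt hG.analyticAt

theorem qExpansion_smul (c : ℂ) (hF : IsForm N k F) :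
    qExpansion 1 (c • F) = c • qExpansion 1 F :=
  UpperHalfPlane.qExpansion_smul hF.analyticAt c

theorem qExpansion_pow (hF : IsForm N k F) : ∀ m : ℕ, qExpansion 1 (F ^ m) = qExpansion 1 F ^ m
  | 0 => by rw [pow_zero, pow_zero, UpperHalfPlane.qExpansion_one]
  | m + 1 => by rw [pow_succ, pow_succ, (hF.pow m).qExpansion_mul hF, hF.qExpansion_pow m]

theorem qExpansion_sum {ι : Type*} (s : Finset ι) {f : ι → ℍ → ℂ}
    (hf : ∀ i ∈ s, IsForm N k (f i)) :
    qExpansion 1 (∑ i ∈ s, f i) = ∑ i ∈ s, qExpansion 1 (f i) := by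
  classical
  induction s using Finset.induction_on with
  | empty => simp [UpperHalfPlane.qExpansion_zero]
  | insert a t ha ih =>
    rw [Finset.sum_insert ha, Finset.sum_insert ha,
      (hf a (Finset.mem_insert_self a t)).qExpansion_add
        (IsForm.sum t fun i hi => hf i (Finset.mem_insert_of_mem hi)),
      ih fun i hi => hf i (Finset.mem_insert_of_mem hi)]

theorem eq_zero_of_qExpansion (hF : IsForm N k F) (h : qExpansion 1 F = 0) : F = 0 :=
  (UpperHalfPlane.qExpansion_eq_zero_iff one_pos hF.periodic hF.holo hF.bdd_infty).mp h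

theorem eq_of_qExpansion (hF : IsForm N k F) (hG : IsForm N k G)
    (h : qExpansion 1 F = qExpansion 1 G) : F = G := by
  have hG' : IsForm N k ((-1 : ℂ) • G) := hG.smul (-1)
  have h0 : F + (-1 : ℂ) • G = 0 := (hF.add hG').eq_zero_of_qExpansion (by
    rw [hF.qExpansion_add hG', hG.qExpansion_smul, h]
    simp)
  funext τ
  have := congrFun h0 τ
  simp only [Pi.add_apply, Pi.smul_apply, smul_eq_mul, Pi.zero_apply] at this
  linear_combination this

end IsForm

namespace IsCuspidal

/-- Package as a `CuspForm`. -/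
def toCuspForm [NeZero N] (h : IsCuspidal N k F) : CuspForm (Gamma0 N) k where
  toFun := F
  slash_action_eq' := by
    rintro _ ⟨γ, hγ, rfl⟩
    exact h.slash γ hγ
  holo' := h.holo
  zero_at_cusps' hc := by
    rw [Subgroup.IsArithmetic.isCusp_iff_isCusp_SL2Z] at hc
    rw [OnePoint.isZeroAt_iff_forall_SL2Z hc]
    exact fun γ _ => h.zero γ

@[simp] theorem coe_toCuspForm [NeZero N] (h : IsCuspidal N k F) : ⇑h.toCuspForm = F := rfl

end IsCuspidal

end

end FLTAgent.CuspForms
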