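import Fermat.Agent.CuspForms.IsForm
import Fermat.Agent.CuspForms.Descent

/-!
# Level one forms are spanned by forms with integral coefficients
-/

set_option autoImplicit false
set_option linter.style.haveILetI false

open UpperHalfPlane CongruenceSubgroup ModularForm EisensteinSeries
open scoped MatrixGroups ModularForm Manifold

namespace FLTAgent.CuspForms

noncomputable section

/-- The series of forms of level one and weight `k` with integral coefficients. -/
def intFormSeries (k : ℤ) : Set (PowerSeries ℂ) :=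
  {s | (∃ G : ℍ → ℂ, IsForm 1 k G ∧ qExpansion 1 G = s) ∧ s ∈ Set.range intIncl}

/-- Package an `IsForm 1` as a modular form for `SL(2, ℤ)`. -/
def IsForm.toLevelOne {k : ℤ} {F : ℍ → ℂ} (h : IsForm 1 k F) : ModularForm 𝒮ℒ k where
  toFun := F
  slash_action_eq' := by
    rintro _ ⟨γ, rfl⟩
    exact h.slash γ (by rw [gamma0_one_eq_top]; trivial)
  holo' := h.holo
  bdd_at_cusps' hc := by
    rw [OnePoint.isBoundedAt_iff_forall_SL2Z hc]
    exact fun γ _ => h.bdd γ

@[simp] theorem IsForm.coe_toLevelOne {k : ℤ} {F : ℍ → ℂ} (h : IsForm 1 k F) :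
    ⇑h.toLevelOne = F := rfl

theorem intIncl_range_of_coeff {s : PowerSeries ℂ}
    (h : ∀ n, ∃ m : ℤ, PowerSeries.coeff n s = (m : ℂ)) : s ∈ Set.range intIncl := by
  choose m hm using h
  exact ⟨PowerSeries.mk m, by ext n; simp [hm]⟩

theorem qExpansion_E4_int : qExpansion 1 E₄ ∈ Set.range intIncl := by
  refine intIncl_range_of_coeff fun n =>
    ⟨if n = 0 then 1 else 240 * (ArithmeticFunction.sigma 3 n : ℕ), ?_⟩
  rw [E_qExpansion_coeff _ ⟨2, rfl⟩, show bernoulli 4 = -1 / 30 by decide +kernel]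
  split_ifs <;> norm_num

theorem qExpansion_E6_int : qExpansion 1 E₆ ∈ Set.range intIncl := by
  refine intIncl_range_of_coeff fun n =>
    ⟨if n = 0 then 1 else -504 * (ArithmeticFunction.sigma 5 n : ℕ), ?_⟩
  rw [E_qExpansion_coeff _ ⟨3, rfl⟩, show bernoulli 6 = 1 / 42 by decide +kernel]
  split_ifs <;> norm_num

/-- `E₄³ - E₆² = 1728 Δ`. -/
def disc1728 : ℍ → ℂ := ⇑E₄ ^ 3 + (-1 : ℂ) • ⇑E₆ ^ 2

theorem isForm_disc1728 : IsForm 1 12 disc1728 :=
  ((isForm_one_of_levelOne E₄).pow 3).congr_weight (by norm_num) |>.add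
    ((((isForm_one_of_levelOne E₆).pow 2).congr_weight (m := 12) (by norm_num)).smul (-1))

theorem disc1728_apply (z : ℍ) : disc1728 z = 1728 * ModularForm.discriminant z := by
  rw [ModularForm.discriminant_eq_E₄_cube_sub_E₆_sq]
  simp only [disc1728, Pi.add_apply, Pi.smul_apply, Pi.pow_apply, smul_eq_mul]
  ring

theorem disc1728_ne_zero (z : ℍ) : disc1728 z ≠ 0 := by
  rw [disc1728_apply]
  exact mul_ne_zero (by norm_num) (ModularForm.discriminant_ne_zero z)

theorem qExpansion_disc1728_int : qExpansion 1 disc1728 ∈ Set.range intIncl := by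
  obtain ⟨a, ha⟩ := qExpansion_E4_int
  obtain ⟨b, hb⟩ := qExpansion_E6_int
  refine ⟨a ^ 3 - b ^ 2, ?_⟩
  have h4 := isForm_one_of_levelOne E₄
  have h6 := isForm_one_of_levelOne E₆
  rw [disc1728, ((h4.pow 3).congr_weight (m := 12) (by norm_num)).qExpansion_add
    (((h6.pow 2).congr_weight (m := 12) (by norm_num)).smul (-1)),
    (h6.pow 2).qExpansion_smul, h4.qExpansion_pow, h6.qExpansion_pow, map_sub, map_pow, map_pow,
    ha, hb]
  rw [neg_one_smul]
  ring

/-- Level one forms are spanned by forms with integral coefficients. -/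
theorem levelOne_qExpansion_mem {k : ℤ} {F : ℍ → ℂ} (hF : IsForm 1 k F) :
    qExpansion 1 F ∈ Submodule.span ℂ (intFormSeries k) := by
  induction hn : k.toNat using Nat.strong_induction_on generalizing k F with
  | _ n ih =>
    subst hn
    rcases lt_or_ge k 0 with hneg | hnn
    · have : F = 0 := by
        have := ModularFormClass.levelOne_neg_weight_eq_zero hneg hF.toLevelOne
        simpa using this
      rw [this, UpperHalfPlane.qExpansion_zero]
      exact Submodule.zero_mem _
    rcases Int.even_or_odd k with heven | hodd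
    swap
    · have : F = 0 := by
        have := congrArg (fun g : ModularForm 𝒮ℒ k => (g : ℍ → ℂ))
          (ModularForm.levelOne_odd_weight_eq_zero hodd hF.toLevelOne)
        simpa using this
      rw [this, UpperHalfPlane.qExpansion_zero]
      exact Submodule.zero_mem _
    -- a monomial with constant term one
    obtain rfl | hk0 := eq_or_lt_of_le hnn
    · obtain ⟨c, hc⟩ := ModularFormClass.levelOne_weight_zero_const hF.toLevelOne
      have hFc : F = c • (fun _ => (1 : ℂ)) := by
        rw [IsForm.coe_toLevelOne] at hc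
        rw [hc]
        funext z
        simp
      rw [hFc, (IsForm.const (N := 1) 1).qExpansion_smul]
      refine Submodule.smul_mem _ _ (Submodule.subset_span ⟨⟨_, IsForm.const 1, rfl⟩, ?_⟩)
      exact ⟨1, by rw [map_one, ← UpperHalfPlane.qExpansion_one 1]; rfl⟩
    obtain hk2 | hk4 : k = 2 ∨ 4 ≤ k := by
      obtain ⟨r, rfl⟩ := heven
      omega
    · subst hk2
      have : F = 0 := by
        have h0 : hF.toLevelOne = 0 :=
          rank_zero_iff_forall_zero.mp ModularForm.levelOne_weight_two_rank_zero _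
        have := congrArg (fun g : ModularForm 𝒮ℒ 2 => (g : ℍ → ℂ)) h0
        simpa using this
      rw [this, UpperHalfPlane.qExpansion_zero]
      exact Submodule.zero_mem _
    obtain ⟨a, b, hab⟩ : ∃ a b : ℕ, (a : ℤ) * 4 + (b : ℤ) * 6 = k := by
      obtain ⟨r, rfl⟩ := heven
      rcases Int.even_or_odd r with ⟨s, rfl⟩ | ⟨s, rfl⟩
      · exact ⟨s.toNat, 0, by omega⟩
      · exact ⟨(s - 1).toNat, 1, by omega⟩
    have h4 := isForm_one_of_levelOne E₄
    have h6 := isForm_one_of_levelOne E₆
    set G : ℍ → ℂ := ⇑E₄ ^ a * ⇑E₆ ^ b with hGdef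
    have hG : IsForm 1 k G := ((h4.pow a).mul (h6.pow b)).congr_weight hab
    have hGq : qExpansion 1 G = qExpansion 1 E₄ ^ a * qExpansion 1 E₆ ^ b := by
      rw [hGdef, (h4.pow a).qExpansion_mul (h6.pow b), h4.qExpansion_pow, h6.qExpansion_pow]
    have hGint : qExpansion 1 G ∈ Set.range intIncl := by
      obtain ⟨u, hu⟩ := qExpansion_E4_int
      obtain ⟨v, hv⟩ := qExpansion_E6_int
      exact ⟨u ^ a * v ^ b, by rw [hGq, map_mul, map_pow, map_pow, hu, hv]⟩
    have hG0 : PowerSeries.coeff 0 (qExpansion 1 G) = 1 := by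
      have e4 : PowerSeries.coeff 0 (qExpansion 1 E₄) = 1 := E_qExpansion_coeff_zero _ ⟨2, rfl⟩
      have e6 : PowerSeries.coeff 0 (qExpansion 1 E₆) = 1 := E_qExpansion_coeff_zero _ ⟨3, rfl⟩
      rw [PowerSeries.coeff_zero_eq_constantCoeff] at e4 e6 ⊢
      rw [hGq, map_mul, map_pow, map_pow, e4, e6]
      simp
    set c := PowerSeries.coeff 0 (qExpansion 1 F) with hc
    set F₀ : ℍ → ℂ := F + (-c) • G with hF₀def
    have hF₀ : IsForm 1 k F₀ := hF.add (hG.smul (-c))
    have hF₀q : qExpansion 1 F₀ = qExpansion 1 F + (-c) • qExpansion 1 G := by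
      rw [hF₀def, hF.qExpansion_add (hG.smul (-c)), hG.qExpansion_smul]
    have hF₀0 : (qExpansion 1 hF₀.toLevelOne).coeff 0 = 0 := by
      rw [IsForm.coe_toLevelOne, hF₀q, map_add, PowerSeries.coeff_smul, hG0, ← hc]
      simp
    set g : ModularForm 𝒮ℒ (k - 12) :=
      CuspForm.discriminantEquiv (ModularForm.toCuspForm hF₀.toLevelOne hF₀0)
    have hg := isForm_one_of_levelOne g
    have key : qExpansion 1 F₀ = (1728 : ℂ)⁻¹ • (qExpansion 1 disc1728 * qExpansion 1 g) := by
      have h1 := ModularForm.qExpansion_eq_qExpansion_discriminant_mul hF₀.toLevelOne hF₀0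
      rw [IsForm.coe_toLevelOne] at h1
      rw [h1, ← smul_mul_assoc]
      congr 1
      have hΔ : ModularForm.discriminant = (1728 : ℂ)⁻¹ • disc1728 := by
        funext z
        simp [disc1728_apply]
      rw [hΔ, isForm_disc1728.qExpansion_smul]
    have hmem : qExpansion 1 F₀ ∈ Submodule.span ℂ (intFormSeries k) := by
      have hgm := ih (k - 12).toNat (by omega) hg rfl
      rw [key]
      refine Submodule.smul_mem _ _ ?_
      clear key
      generalize qExpansion 1 g = s₀ at hgm ⊢
      induction hgm using Submodule.span_induction with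
      | mem s hs =>
        obtain ⟨⟨H, hH, rfl⟩, u, hu⟩ := hs
        obtain ⟨v, hv⟩ := qExpansion_disc1728_int
        exact Submodule.subset_span ⟨⟨disc1728 * H, (isForm_disc1728.mul hH).congr_weight (by ring),
          isForm_disc1728.qExpansion_mul hH⟩, v * u, by rw [map_mul, hu, hv]⟩
      | zero => simp
      | add s t _ _ hs ht =>
        rw [mul_add]
        exact Submodule.add_mem _ hs ht
      | smul r s _ hs =>
        rw [mul_smul_comm]
        exact Submodule.smul_mem _ _ hs
    have : qExpansion 1 F = qExpansion 1 F₀ + c • qExpansion 1 G := by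
      rw [hF₀q, _root_.neg_smul]
      abel
    rw [this]
    exact Submodule.add_mem _ hmem
      (Submodule.smul_mem _ _ (Submodule.subset_span ⟨⟨G, hG, rfl⟩, hGint⟩))

theorem levelOne_qExpansion_intSpan {k : ℤ} {F : ℍ → ℂ} (hF : IsForm 1 k F) :
    qExpansion 1 F ∈ intSpan :=
  mem_intSpan_iff.mpr
    (Submodule.span_mono (fun _ hs => hs.2) (levelOne_qExpansion_mem hF))

theorem levelOne_exists_conj {k : ℤ} {F : ℍ → ℂ} (hF : IsForm 1 k F) (σ : ℂ →+* ℂ) :
    ∃ G : ℍ → ℂ, IsForm 1 k G ∧ qExpansion 1 G = PowerSeries.map σ (qExpansion 1 F) := by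
  have hmem := levelOne_qExpansion_mem hF
  generalize qExpansion 1 F = s₀ at hmem ⊢
  induction hmem using Submodule.span_induction with
  | mem s hs =>
    obtain ⟨⟨G, hG, rfl⟩, u, hu⟩ := hs
    refine ⟨G, hG, ?_⟩
    rw [← hu]
    ext n
    simp [PowerSeries.coeff_map]
  | zero => exact ⟨0, IsForm.zero, by simp [UpperHalfPlane.qExpansion_zero]⟩
  | add s t _ _ hs ht =>
    obtain ⟨G, hG, hGs⟩ := hs
    obtain ⟨H, hH, hHt⟩ := ht
    exact ⟨G + H, hG.add hH, by rw [hG.qExpansion_add hH, hGs, hHt, map_add]⟩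
  | smul r s _ hs =>
    obtain ⟨G, hG, hGs⟩ := hs
    refine ⟨σ r • G, hG.smul _, ?_⟩
    rw [hG.qExpansion_smul, hGs]
    ext n
    simp [PowerSeries.coeff_map]

end

end FLTAgent.CuspForms
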