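import Fermat.Agent.CuspForms.LevelOne

/-!
# The separating form `Δ(Nτ)` on `Γ₀(N)`
-/

set_option autoImplicit false
set_option linter.style.haveILetI false

open UpperHalfPlane CongruenceSubgroup Filter
open scoped MatrixGroups ModularForm Manifold Topology Real

namespace FLTAgent.CuspForms

noncomputable section

/-- `z ↦ N z` on the upper half plane. -/
def mulHalfPlane (N : ℕ) [NeZero N] (τ : ℍ) : ℍ :=
  UpperHalfPlane.mk ((N : ℂ) * τ) (by
    simp only [Complex.mul_im, Complex.natCast_re, Complex.natCast_im, zero_mul, add_zero]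
    exact mul_pos (by exact_mod_cast Nat.pos_of_ne_zero (NeZero.ne N)) τ.im_pos)

@[simp] theorem coe_mulHalfPlane (N : ℕ) [NeZero N] (τ : ℍ) :
    ((mulHalfPlane N τ : ℍ) : ℂ) = (N : ℂ) * τ := rfl

@[simp] theorem im_mulHalfPlane (N : ℕ) [NeZero N] (τ : ℍ) :
    (mulHalfPlane N τ).im = (N : ℝ) * τ.im := by
  change ((N : ℂ) * τ).im = _
  simp [Complex.mul_im]

variable (N : ℕ) [NeZero N]

/-- The separator `1728 Δ(Nτ)`. -/
def sep : ℍ → ℂ := fun τ => disc1728 (mulHalfPlane N τ)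

theorem sep_ne_zero (τ : ℍ) : sep N τ ≠ 0 := disc1728_ne_zero _

theorem denom_SL (γ : SL(2, ℤ)) (z : ℍ) :
    UpperHalfPlane.denom γ z = ((γ 1 0 : ℤ) : ℂ) * z + ((γ 1 1 : ℤ) : ℂ) := by
  simp [UpperHalfPlane.denom]

theorem disc1728_smul (γ : SL(2, ℤ)) (z : ℍ) :
    disc1728 (γ • z) = UpperHalfPlane.denom γ z ^ (12 : ℤ) * disc1728 z := by
  have := congrFun (isForm_disc1728.slash γ (by rw [gamma0_one_eq_top]; trivial)) z
  rw [ModularForm.SL_slash_apply] at this
  rw [← this, mul_left_comm, ← zpow_add₀ (UpperHalfPlane.denom_ne_zero _ _)]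
  simp

theorem disc1728_add_int (z w : ℍ) (b : ℤ) (h : (w : ℂ) = (z : ℂ) + b) :
    disc1728 w = disc1728 z := by
  have hw : w = ModularGroup.T ^ b • z := by
    ext
    rw [h, UpperHalfPlane.modular_T_zpow_smul]
    simp [add_comm]
  rw [hw, disc1728_smul]
  rw [denom_SL, ModularGroup.coe_T_zpow]
  simp

/-- Upper triangular normal form of `diag(N,1) γ`. -/
theorem sep_slash_decomp (γ : SL(2, ℤ)) :
    ∃ (g e : ℕ) (b' : ℤ), g * e = N ∧ (e = 1 ↔ (N : ℤ) ∣ γ 1 0) ∧ ∀ τ : ℍ, ∃ z : ℍ,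
      (z : ℂ) = ((g : ℂ) * τ + b') / e ∧
      (sep N ∣[(12 : ℤ)] γ) τ = ((e : ℂ) ^ (12 : ℤ))⁻¹ * disc1728 z := by
  have hdet : γ 0 0 * γ 1 1 - γ 0 1 * γ 1 0 = 1 := by
    have := γ.2
    rwa [Matrix.det_fin_two] at this
  set a := γ 0 0 with ha
  set b := γ 0 1 with hb
  set c := γ 1 0 with hc
  set d := γ 1 1 with hd
  have hN0 : (N : ℤ) ≠ 0 := by exact_mod_cast NeZero.ne N
  set g : ℕ := Int.gcd (N * a) c with hgdef
  have hg0 : g ≠ 0 := by
    rw [hgdef, ne_eq, Int.gcd_eq_zero_iff]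
    rintro ⟨h1, h2⟩
    rcases mul_eq_zero.mp h1 with h | h
    · exact hN0 h
    · rw [h, h2] at hdet; simp at hdet
  obtain ⟨r, hr⟩ : (g : ℤ) ∣ N * a := Int.gcd_dvd_left _ _
  obtain ⟨s, hs⟩ : (g : ℤ) ∣ c := Int.gcd_dvd_right _ _
  set w : ℤ := Int.gcdA (N * a) c with hw
  set x : ℤ := -Int.gcdB (N * a) c with hx
  have hbez : r * w - x * s = 1 := by
    have h : (g : ℤ) = N * a * w + c * (-x) := by
      simpa [hgdef, hw, hx] using Int.gcd_eq_gcd_ab (N * a) c
    rw [hr, hs] at h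
    exact mul_left_cancel₀ (show (g : ℤ) ≠ 0 by exact_mod_cast hg0) (by linear_combination -h)
  set e' : ℤ := r * d - N * b * s with he'
  have hge : (g : ℤ) * e' = N := by
    linear_combination (N : ℤ) * hdet - d * hr + (N : ℤ) * b * hs
  have hepos : 0 < e' := by
    have hgpos : (0 : ℤ) < g := by exact_mod_cast Nat.pos_of_ne_zero hg0
    have hNpos : (0 : ℤ) < N := lt_of_le_of_ne (by positivity) hN0.symm
    nlinarith
  obtain ⟨e, he⟩ : ∃ e : ℕ, (e : ℤ) = e' := ⟨e'.toNat, Int.toNat_of_nonneg hepos.le⟩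
  have hge' : g * e = N := by
    have : ((g * e : ℕ) : ℤ) = N := by rw [Nat.cast_mul, he, hge]
    exact_mod_cast this
  refine ⟨g, e, w * (N * b) - x * d, hge', ⟨fun h => ?_, fun h => ?_⟩, fun τ => ?_⟩
  · rw [h, mul_one] at hge'
    rw [← hge']
    exact ⟨s, hs⟩
  · have h1 : (N : ℤ) ∣ (g : ℤ) := Int.dvd_coe_gcd (dvd_mul_right _ _) h
    have h2 : g = N := Nat.dvd_antisymm ⟨e, hge'.symm⟩ (Int.natCast_dvd_natCast.mp h1)
    rw [h2] at hge'
    exact (mul_eq_left₀ (NeZero.ne N)).mp hge'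
  set b' : ℤ := w * (N * b) - x * d with hb'
  have heC : (e : ℂ) ≠ 0 := by
    have : (e : ℤ) ≠ 0 := by omega
    exact_mod_cast this
  set γ' : SL(2, ℤ) := ⟨!![r, x; s, w], by rw [Matrix.det_fin_two_of]; exact hbez⟩ with hγ'
  have hden : UpperHalfPlane.denom γ τ = (c : ℂ) * τ + d := by
    simp [UpperHalfPlane.denom, hc, hd]
  have hz : 0 < (((g : ℂ) * τ + b') / e).im := by
    rw [Complex.div_natCast_im]
    simp only [Complex.add_im, Complex.mul_im, Complex.natCast_re, Complex.natCast_im, zero_mul,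
      add_zero, Complex.intCast_im]
    exact div_pos (mul_pos (by exact_mod_cast Nat.pos_of_ne_zero hg0) τ.im_pos)
      (by exact_mod_cast (show 0 < e by omega))
  refine ⟨UpperHalfPlane.mk _ hz, rfl, ?_⟩
  set z : ℍ := UpperHalfPlane.mk _ hz with hzdef
  have e1 : (s : ℤ) * b' + w * e' = d := by
    rw [hb', he']
    linear_combination d * hbez
  have e2 : (r : ℤ) * b' + x * e' = N * b := by
    rw [hb', he']
    linear_combination ((N : ℤ) * b) * hbez
  have hzc : (z : ℂ) = ((g : ℂ) * τ + b') / e := rfl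
  have hden' : UpperHalfPlane.denom γ' z = UpperHalfPlane.denom γ τ / e := by
    rw [hden]
    have hgen : UpperHalfPlane.denom γ' z = ((γ' 1 0 : ℤ) : ℂ) * z + ((γ' 1 1 : ℤ) : ℂ) := by
      simp [UpperHalfPlane.denom]
    rw [hgen, show γ' 1 0 = s from rfl, show γ' 1 1 = w from rfl, hzc]
    have e1' : (s : ℂ) * b' + w * e = d := by rw [← he] at e1; exact_mod_cast e1
    have hs' : (c : ℂ) = g * s := by exact_mod_cast hs
    rw [hs', ← e1']
    field_simp
    ring
  have hnum : ((mulHalfPlane N (γ • τ) : ℍ) : ℂ) = ((γ' • z : ℍ) : ℂ) := by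
    rw [coe_mulHalfPlane, UpperHalfPlane.coe_specialLinearGroup_apply,
      UpperHalfPlane.coe_specialLinearGroup_apply]
    have hd1 : (c : ℂ) * τ + d ≠ 0 := hden ▸ UpperHalfPlane.denom_ne_zero _ _
    have e1' : (s : ℂ) * b' + w * e = d := by rw [← he] at e1; exact_mod_cast e1
    have e2' : (r : ℂ) * b' + x * e = N * b := by rw [← he] at e2; exact_mod_cast e2
    have hs' : (c : ℂ) = g * s := by exact_mod_cast hs
    have hr' : (N : ℂ) * a = g * r := by exact_mod_cast hr
    simp [hγ', hzc, ← ha, ← hb, ← hc, ← hd]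
    have hd2 : (s : ℂ) * (((g : ℂ) * τ + b') / e) + w = ((c : ℂ) * τ + d) / e := by
      rw [hs', ← e1']
      field_simp
      ring
    have hn2 : (r : ℂ) * (((g : ℂ) * τ + b') / e) + x = ((N : ℂ) * a * τ + N * b) / e := by
      rw [hr', ← e2']
      field_simp
      ring
    rw [hd2, hn2, div_div_div_cancel_right₀ heC, ← mul_div_assoc, mul_add, ← mul_assoc]
  rw [ModularForm.SL_slash_apply, sep,
    show mulHalfPlane N (γ • τ) = γ' • z from UpperHalfPlane.ext hnum, disc1728_smul, hden',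
    div_zpow, zpow_neg]
  have : UpperHalfPlane.denom γ τ ^ (12 : ℤ) ≠ 0 :=
    zpow_ne_zero _ (UpperHalfPlane.denom_ne_zero _ _)
  field_simp

theorem isForm_sep : IsForm N 12 (sep N) where
  holo := by
    have hdet : 0 < (Matrix.GeneralLinearGroup.mkOfDetNeZero !![(N : ℝ), 0; 0, 1]
        (by simp [NeZero.ne N]) : GL (Fin 2) ℝ).det.val := by
      simp [Matrix.GeneralLinearGroup.mkOfDetNeZero, Nat.pos_of_ne_zero (NeZero.ne N)]
    have heq : sep N = disc1728 ∘ fun τ : ℍ =>
        (Matrix.GeneralLinearGroup.mkOfDetNeZero !![(N : ℝ), 0; 0, 1]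
          (by simp [NeZero.ne N]) : GL (Fin 2) ℝ) • τ := by
      funext τ
      simp only [sep, Function.comp_apply]
      congr 1
      ext
      rw [coe_mulHalfPlane, UpperHalfPlane.coe_smul_of_det_pos hdet]
      simp [UpperHalfPlane.num, UpperHalfPlane.denom, Matrix.GeneralLinearGroup.mkOfDetNeZero]
    rw [heq]
    exact isForm_disc1728.holo.comp (UpperHalfPlane.mdifferentiable_smul hdet)
  slash γ hγ := by
    obtain ⟨g, e, b', hge, hiff, h⟩ := sep_slash_decomp N γ
    funext τ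
    rw [Gamma0_mem, ZMod.intCast_zmod_eq_zero_iff_dvd] at hγ
    obtain ⟨z, hz, hval⟩ := h τ
    obtain rfl := hiff.mpr hγ
    rw [mul_one] at hge
    rw [hval]
    simp only [Nat.cast_one, div_one] at hz
    simp only [Nat.cast_one, one_zpow, inv_one, one_mul, sep]
    exact disc1728_add_int _ _ b' (by rw [hz, coe_mulHalfPlane, hge])
  bdd γ := by
    obtain ⟨g, e, b', hge, -, h⟩ := sep_slash_decomp N γ
    choose z hz hval using h
    have heq : sep N ∣[(12 : ℤ)] γ = fun τ => ((e : ℂ) ^ (12 : ℤ))⁻¹ * disc1728 (z τ) := funext hval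
    rw [heq]
    have hg : 0 < g := Nat.pos_of_ne_zero fun h0 => NeZero.ne N (by rw [← hge, h0, zero_mul])
    have he : 0 < e := Nat.pos_of_ne_zero fun h0 => NeZero.ne N (by rw [← hge, h0, mul_zero])
    have htend : Tendsto z atImInfty atImInfty := by
      rw [atImInfty, tendsto_comap_iff]
      have : (UpperHalfPlane.im ∘ z) = fun τ : ℍ => ((g : ℝ) / e) * τ.im := by
        funext τ
        show ((z τ : ℍ) : ℂ).im = _
        rw [hz τ, Complex.div_natCast_im]
        simp [Complex.mul_im]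
        ring
      rw [this]
      exact Tendsto.const_mul_atTop (by positivity) tendsto_comap
    exact (Filter.const_boundedAtFilter atImInfty ((e : ℂ) ^ (12 : ℤ))⁻¹).mul
      (isForm_disc1728.bdd_infty.comp_tendsto htend)

/-- The separator is fixed exactly by `Γ₀(N)`. -/
theorem mem_Gamma0_of_sep_slash_eq {γ : SL(2, ℤ)} (h : sep N ∣[(12 : ℤ)] γ = sep N) :
    γ ∈ Gamma0 N := by
  obtain ⟨g, e, b', hge, hiff, hd⟩ := sep_slash_decomp N γ
  rw [Gamma0_mem, ZMod.intCast_zmod_eq_zero_iff_dvd]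
  by_contra hnd
  have he1 : e ≠ 1 := fun h1 => hnd (hiff.mp h1)
  have hg : 0 < g := Nat.pos_of_ne_zero fun h0 => NeZero.ne N (by rw [← hge, h0, zero_mul])
  have he : 0 < e := Nat.pos_of_ne_zero fun h0 => NeZero.ne N (by rw [← hge, h0, mul_zero])
  choose z hz hval using hd
  let P : ℍ → ℂ := fun τ => ∏' n : ℕ, (1 - ModularForm.eta_q n τ) ^ 24
  have hdisc : ∀ τ, ‖disc1728 τ‖ = 1728 * Real.exp (-2 * π * τ.im) * ‖P τ‖ := by
    intro τ
    rw [disc1728_apply, ModularForm.discriminant_eq_q_prod, norm_mul, norm_mul]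
    have : ‖Function.Periodic.qParam 1 τ‖ = Real.exp (-2 * π * τ.im) := by
      simp [Function.Periodic.qParam, Complex.norm_exp]
    rw [this]
    simp [P, mul_assoc]
  have him : ∀ τ : ℍ, (z τ).im = (g : ℝ) / e * τ.im := by
    intro τ
    show ((z τ : ℍ) : ℂ).im = _
    rw [hz τ, Complex.div_natCast_im]
    simp [Complex.mul_im]
    ring
  have key : ∀ τ : ℍ, ((e : ℝ) ^ 12)⁻¹ * ‖P (z τ)‖ =
      Real.exp (-2 * π * ((N : ℝ) - (g : ℝ) / e) * τ.im) * ‖P (mulHalfPlane N τ)‖ := by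
    intro τ
    have := congrArg norm ((hval τ).symm.trans (congrFun h τ))
    rw [norm_mul, sep, hdisc, hdisc, him, im_mulHalfPlane, norm_inv, norm_zpow,
      Complex.norm_natCast] at this
    have e12 : ((e : ℝ) ^ (12 : ℤ)) = (e : ℝ) ^ (12 : ℕ) := by norm_cast
    rw [e12] at this
    have hexp : Real.exp (-2 * π * ((N : ℝ) - (g : ℝ) / e) * τ.im) =
        Real.exp (-2 * π * ((N : ℝ) * τ.im)) / Real.exp (-2 * π * ((g : ℝ) / e * τ.im)) := by
      rw [← Real.exp_sub]; congr 1; ring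
    rw [hexp, div_mul_eq_mul_div, eq_div_iff (Real.exp_ne_zero _)]
    linear_combination this / 1728
  have hpos : 0 < (N : ℝ) - (g : ℝ) / e := by
    have he2 : (1 : ℝ) < e := by exact_mod_cast (show 1 < e by omega)
    have hNg : (N : ℝ) = g * e := by exact_mod_cast hge.symm
    rw [hNg, sub_pos, div_lt_iff₀ (by linarith)]
    have hg' : (0 : ℝ) < g := by exact_mod_cast hg
    nlinarith [mul_lt_mul_of_pos_left he2 hg', mul_pos hg' (sub_pos.mpr he2)]
  have hzt : Tendsto z atImInfty atImInfty := by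
    rw [atImInfty, tendsto_comap_iff, show UpperHalfPlane.im ∘ z = fun τ => (g : ℝ) / e * τ.im from
      funext him]
    exact Tendsto.const_mul_atTop (by positivity) tendsto_comap
  have hNt : Tendsto (mulHalfPlane N) atImInfty atImInfty := by
    rw [atImInfty, tendsto_comap_iff,
      show UpperHalfPlane.im ∘ mulHalfPlane N = fun τ => (N : ℝ) * τ.im from
        funext (im_mulHalfPlane N)]
    exact Tendsto.const_mul_atTop (by exact_mod_cast Nat.pos_of_ne_zero (NeZero.ne N)) tendsto_comap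
  have hP := ModularForm.tendsto_atImInfty_tprod_one_sub_eta_q_pow
  have hL : Tendsto (fun τ : ℍ => ((e : ℝ) ^ 12)⁻¹ * ‖P (z τ)‖) atImInfty
      (𝓝 (((e : ℝ) ^ 12)⁻¹ * ‖(1 : ℂ)‖)) := ((hP.comp hzt).norm).const_mul _
  have hR : Tendsto (fun τ : ℍ => Real.exp (-2 * π * ((N : ℝ) - (g : ℝ) / e) * τ.im) *
      ‖P (mulHalfPlane N τ)‖) atImInfty (𝓝 (0 * ‖(1 : ℂ)‖)) := by
    refine Tendsto.mul (Real.tendsto_exp_atBot.comp ?_) ((hP.comp hNt).norm)
    exact Tendsto.const_mul_atTop_of_neg (by nlinarith [Real.pi_pos]) tendsto_comap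
  rw [funext key] at hL
  haveI : (atImInfty : Filter ℍ).NeBot := by
    rw [atImInfty]
    exact Filter.comap_neBot fun t ht => by
      obtain ⟨A, hA⟩ := Filter.mem_atTop_sets.mp ht
      refine ⟨UpperHalfPlane.mk ⟨0, max A 1⟩ (by simp), ?_⟩
      exact hA _ (by show A ≤ max A 1; exact le_max_left _ _)
  have := tendsto_nhds_unique hL hR
  simp at this
  omega

/-- The `q`-expansion of the separator has integral coefficients. -/
theorem qExpansion_sep_int : qExpansion 1 (sep N) ∈ Set.range intIncl := by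
  obtain ⟨u, hu⟩ := qExpansion_disc1728_int
  refine intIncl_range_of_coeff fun n => ⟨if N ∣ n then PowerSeries.coeff (n / N) u else 0, ?_⟩
  symm
  refine ModularFormClass.qExpansion_coeff_unique (f := (isForm_sep N).toModularForm)
    (c := fun n => (((if N ∣ n then PowerSeries.coeff (n / N) u else 0) : ℤ) : ℂ)) one_pos
    (one_mem_strictPeriods_Gamma0 N) (fun τ => ?_) n
  have hs := (mulHalfPlane N τ).hasSum_qExpansion one_pos isForm_disc1728.periodic
    isForm_disc1728.holo isForm_disc1728.bdd_infty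
  rw [IsForm.coe_toModularForm, sep]
  have hinj : Function.Injective fun m : ℕ => N * m := fun a b hab =>
    mul_left_cancel₀ (NeZero.ne N) hab
  rw [← hinj.hasSum_iff]
  · convert hs using 1
    funext m
    simp only [Function.comp_apply, dvd_mul_right, if_true,
      Nat.mul_div_cancel_left _ (Nat.pos_of_ne_zero (NeZero.ne N)), ← coeff_intIncl, hu, pow_mul]
    congr 2
    simp [Function.Periodic.qParam, ← Complex.exp_nat_mul]
    ring_nf
  · intro m hm
    rw [if_neg fun hd => hm ⟨m / N, Nat.mul_div_cancel' hd⟩]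
    simp

end

end FLTAgent.CuspForms
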